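import Fermat.Agent.DSB.Defs
import Fermat.Agent.TWDia.Cyc
import Fermat.Agent.GalRep.Data
import Fermat.Agent.GoodRed.ValRing

/-!
# (REP): from Galois-Hecke modules to two dimensional representations
-/

set_option autoImplicit false
set_option linter.unusedSectionVars false
set_option linter.style.haveILetI false

noncomputable section

namespace Fermat.Agent.DSB

open IsLocalRing Matrix Fermat.Agent.GalRep Fermat.Agent.TWDia Module
open scoped Pointwise

local notation "Qbar" => AlgebraicClosure ℚ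
local notation "GQ" => (AlgebraicClosure ℚ ≃ₐ[ℚ] AlgebraicClosure ℚ)

/-! ### Semisimplification and transfer -/

section Transfer

variable {G k : Type*} [Group G] [Field k]

theorem mul_mul_of_det_zero {M : Matrix (Fin 2) (Fin 2) k} (hM : M.det = 0)
    (X : Matrix (Fin 2) (Fin 2) k) : M * X * M = (X * M).trace • M := by
  rw [Matrix.det_fin_two] at hM
  ext i j
  fin_cases i <;> fin_cases j
  · simp only [Matrix.mul_apply, Fin.sum_univ_two, Matrix.trace_fin_two, Matrix.smul_apply,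
      smul_eq_mul, Fin.zero_eta, Fin.mk_one, Fin.isValue]
    linear_combination (-X 1 1) * hM
  · simp only [Matrix.mul_apply, Fin.sum_univ_two, Matrix.trace_fin_two, Matrix.smul_apply,
      smul_eq_mul, Fin.zero_eta, Fin.mk_one, Fin.isValue]
    linear_combination (X 0 1) * hM
  · simp only [Matrix.mul_apply, Fin.sum_univ_two, Matrix.trace_fin_two, Matrix.smul_apply,
      smul_eq_mul, Fin.zero_eta, Fin.mk_one, Fin.isValue]
    linear_combination (X 1 0) * hM
  · simp only [Matrix.mul_apply, Fin.sum_univ_two, Matrix.trace_fin_two, Matrix.smul_apply,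
      smul_eq_mul, Fin.zero_eta, Fin.mk_one, Fin.isValue]
    linear_combination (-X 0 0) * hM

theorem cayley_two (M : Matrix (Fin 2) (Fin 2) k) :
    M * M = M.trace • M - M.det • (1 : Matrix (Fin 2) (Fin 2) k) := by
  ext i j
  fin_cases i <;> fin_cases j <;>
    simp [Matrix.mul_apply, Fin.sum_univ_two, Matrix.trace_fin_two, Matrix.det_fin_two] <;> ring

/-- if `M` is a nonzero `2 × 2` matrix with `M * M = 0` then its kernel is spanned by any nonzero
vector in its range -/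
theorem ker_of_sq_zero {M : Matrix (Fin 2) (Fin 2) k} (hM : M * M = 0) (w v : Fin 2 → k)
    (hw : M *ᵥ w ≠ 0) (hv : M *ᵥ v = 0) : ∃ c : k, v = c • (M *ᵥ w) := by
  have h1 : M *ᵥ (M *ᵥ w) = 0 := by rw [Matrix.mulVec_mulVec, hM, Matrix.zero_mulVec]
  have hM0 : M ≠ 0 := fun h => hw (by rw [h, Matrix.zero_mulVec])
  set u := M *ᵥ w with hu
  -- `u` and `v` are linearly dependent, otherwise `M = 0`
  by_contra hcon
  push Not at hcon
  have hli : LinearIndependent k ![u, v] := by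
    rw [LinearIndependent.pair_iff' hw]
    exact fun a h => hcon a h.symm
  have hspan : Submodule.span k (Set.range ![u, v]) = ⊤ := by
    apply hli.span_eq_top_of_card_eq_finrank'
    simp
  apply hM0
  have h2 : Matrix.toLin' M = 0 := by
    apply LinearMap.ext_on_range (v := ![u, v]) hspan
    intro i
    fin_cases i
    · simpa using h1
    · simpa using hv
  exact (Matrix.toLin'.map_eq_zero_iff).mp h2

/-- a two dimensional representation can be replaced by one with the same trace and determinant,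
trivial at each `σ` with trivial determinant where the trace does not change under `g ↦ g σ` -/
theorem exists_ss (T : G →* Matrix (Fin 2) (Fin 2) k) :
    ∃ T' : G →* Matrix (Fin 2) (Fin 2) k, (∀ g, (T' g).trace = (T g).trace) ∧
      (∀ g, (T' g).det = (T g).det) ∧ (∀ g, T g = 1 → T' g = 1) ∧
      ∀ σ, (∀ g, (T' (g * σ)).trace = (T' g).trace) → (T' σ).det = 1 → T' σ = 1 := by
  by_cases hirr : ∃ v : Fin 2 → k, v ≠ 0 ∧ ∀ g, ∃ c : k, T g *ᵥ v = c • v
  · obtain ⟨v, hv0, hv⟩ := hirr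
    choose η hη using hv
    let χ : G →* k := Matrix.detMonoidHom.comp T
    have hχ : ∀ g, χ g = (T g).det := fun g => rfl
    let η' : G →* k :=
      { toFun := η
        map_one' := by
          have h1 := hη 1
          rw [map_one, Matrix.one_mulVec] at h1
          exact (smul_left_injective k hv0 (by simpa using h1)).symm
        map_mul' := fun g h => by
          have h1 := hη (g * h)
          rw [map_mul, ← Matrix.mulVec_mulVec, hη h, Matrix.mulVec_smul, hη g, smul_smul] at h1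
          rw [mul_comm]
          exact (smul_left_injective k hv0 h1).symm }
    have hη' : ∀ g, η' g = η g := fun g => rfl
    have hinv : ∀ g, η' g * η' g⁻¹ = 1 := fun g => by
      rw [← map_mul, mul_inv_cancel, map_one]
    have htr : ∀ g, η' g + χ g * η' g⁻¹ = (T g).trace := by
      intro g
      have h1 : (T g * T g) *ᵥ v = (η g * η g) • v := by
        rw [← Matrix.mulVec_mulVec, hη g, Matrix.mulVec_smul, hη g, smul_smul]
      rw [cayley_two, Matrix.sub_mulVec, Matrix.smul_mulVec, Matrix.smul_mulVec,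
        Matrix.one_mulVec, hη g, smul_smul, ← sub_smul] at h1
      have h2 : (T g).trace * η g - (T g).det = η g * η g := smul_left_injective k hv0 h1
      have h3 := hinv g
      rw [hη'] at h3 ⊢
      rw [hχ]
      have h4 : η g ≠ 0 := left_ne_zero_of_mul_eq_one h3
      apply mul_left_cancel₀ h4
      linear_combination (-1 : k) * h2 + (T g).det * h3
    refine ⟨diagRep η' χ, fun g => ?_, fun g => ?_, fun g hg => ?_, fun σ hσ hdet => ?_⟩
    · rw [diagRep_trace, htr]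
    · rw [diagRep_det, hχ]
    · have h1 : η' g = 1 := by
        have h1 := hη g
        rw [hg, Matrix.one_mulVec] at h1
        rw [hη']
        exact (smul_left_injective k hv0 (by simpa using h1)).symm
      have h2 : η' g⁻¹ = 1 := by have := hinv g; rwa [h1, one_mul] at this
      have h3 : χ g = 1 := by rw [hχ, hg, Matrix.det_one]
      show Matrix.diagonal ![η' g, χ g * η' g⁻¹] = 1
      rw [h1, h2, h3, mul_one]
      ext i j
      fin_cases i <;> fin_cases j <;> simp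
    · rw [diagRep_det] at hdet
      have h1 := hσ 1
      rw [one_mul, map_one, Matrix.trace_one, diagRep_trace, hdet, one_mul] at h1
      have h2 := hinv σ
      have h3 : (η' σ - 1) ^ 2 = 0 := by
        have h4 : ((Fintype.card (Fin 2) : ℕ) : k) = 2 := by simp
        rw [h4] at h1
        linear_combination (η' σ) * h1 - h2
      have h4 : η' σ = 1 := sub_eq_zero.mp (pow_eq_zero_iff (two_ne_zero)|>.mp h3)
      have h5 : η' σ⁻¹ = 1 := by rwa [h4, one_mul] at h2
      show Matrix.diagonal ![η' σ, χ σ * η' σ⁻¹] = 1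
      rw [h4, h5, hdet, mul_one]
      ext i j
      fin_cases i <;> fin_cases j <;> simp
  · refine ⟨T, fun _ => rfl, fun _ => rfl, fun _ h => h, fun σ hσ hdet => ?_⟩
    by_contra hne
    set M : Matrix (Fin 2) (Fin 2) k := T σ - 1 with hMdef
    have hM0 : M ≠ 0 := fun h => hne (sub_eq_zero.mp h)
    have htr : ∀ g, (T g * M).trace = 0 := by
      intro g
      rw [hMdef, mul_sub, mul_one, ← map_mul, Matrix.trace_sub, hσ, sub_self]
    have htr1 : (T σ).trace = 2 := by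
      have := hσ 1
      rw [one_mul, map_one, Matrix.trace_one] at this
      simpa using this
    have hMM : M * M = 0 := by
      have h1 := cayley_two (T σ)
      rw [htr1, hdet, one_smul] at h1
      rw [hMdef, sub_mul, mul_sub, h1, one_mul, mul_one, two_smul]
      abel
    have hMdet : M.det = 0 := by
      have h1 : M.det * M.det = 0 := by
        rw [← Matrix.det_mul, hMM]
        simp
      exact mul_self_eq_zero.mp h1
    obtain ⟨w, hw⟩ : ∃ w : Fin 2 → k, M *ᵥ w ≠ 0 := by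
      by_contra hall
      push Not at hall
      apply hM0
      apply Matrix.toLin'.injective
      apply LinearMap.ext
      intro v
      rw [Matrix.toLin'_apply, hall v, map_zero, LinearMap.zero_apply]
    apply hirr
    refine ⟨M *ᵥ w, hw, fun g => ?_⟩
    apply ker_of_sq_zero hMM w _ hw
    rw [Matrix.mulVec_mulVec, Matrix.mulVec_mulVec, mul_mul_of_det_zero hMdet,
      htr g, zero_smul, Matrix.zero_mulVec]

end Transfer

/-! ### The quadratic relation on the span of the orbit of the eigenvector -/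

section Step1

/-- matrices over `ZMod ℓ` acting on `k ^ r` -/
def actHom {ℓ r : ℕ} {k : Type*} [Field k] (ι : ZMod ℓ →+* k) :
    Matrix (Fin r) (Fin r) (ZMod ℓ) →+* Module.End k (Fin r → k) :=
  ((Matrix.toLinAlgEquiv' : Matrix (Fin r) (Fin r) k ≃ₐ[k] Module.End k (Fin r → k)) :
    Matrix (Fin r) (Fin r) k →+* Module.End k (Fin r → k)).comp ι.mapMatrix

theorem actHom_apply {ℓ r : ℕ} {k : Type*} [Field k] (ι : ZMod ℓ →+* k)
    (M : Matrix (Fin r) (Fin r) (ZMod ℓ)) (v : Fin r → k) :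
    actHom ι M v = M.map ι *ᵥ v := rfl

theorem actHom_smul {ℓ r : ℕ} {k : Type*} [Field k] (ι : ZMod ℓ →+* k) (c : ZMod ℓ)
    (M : Matrix (Fin r) (Fin r) (ZMod ℓ)) :
    actHom ι (c • M) = ι c • actHom ι M := by
  apply LinearMap.ext
  intro v
  rw [LinearMap.smul_apply, actHom_apply, actHom_apply]
  have h1 : (c • M).map ι = ι c • M.map ι := by
    ext i j
    simp
  rw [h1, Matrix.smul_mulVec]

section Span

variable {G k V : Type*} [Group G] [Field k] [AddCommGroup V] [Module k V]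
  (ρ : G →* Module.End k V) (x : V)

/-- the span of the orbit of `x` -/
def Wsp : Submodule k V := Submodule.span k (Set.range fun g => ρ g x)

theorem Wsp_stable (g : G) (v : V) (hv : v ∈ Wsp ρ x) : ρ g v ∈ Wsp ρ x := by
  induction hv using Submodule.span_induction with
  | mem v hv =>
    obtain ⟨h, rfl⟩ := hv
    refine Submodule.subset_span ⟨g * h, ?_⟩
    change ρ (g * h) x = ρ g (ρ h x)
    rw [map_mul, Module.End.mul_apply]
  | zero => rw [map_zero]; exact Submodule.zero_mem _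
  | add v w _ _ hv hw => rw [map_add]; exact Submodule.add_mem _ hv hw
  | smul c v _ hv => rw [map_smul]; exact Submodule.smul_mem _ _ hv

theorem mem_Wsp : x ∈ Wsp ρ x := Submodule.subset_span ⟨1, by simp⟩

theorem Wsp_scalar {F : Module.End k V} {c : k} (hF : ∀ g, ρ g * F = F * ρ g)
    (hx : F x = c • x) (v : V) (hv : v ∈ Wsp ρ x) : F v = c • v := by
  induction hv using Submodule.span_induction with
  | mem v hv =>
    obtain ⟨h, rfl⟩ := hv
    change F (ρ h x) = c • ρ h x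
    rw [← Module.End.mul_apply, ← hF, Module.End.mul_apply, hx, map_smul]
  | zero => rw [map_zero, smul_zero]
  | add v w _ _ hv hw => rw [map_add, hv, hw, smul_add]
  | smul c' v _ hv => rw [map_smul, hv, smul_comm]

end Span

/-- powers in a quadratic relation -/
theorem quad_pow {G k W : Type*} [Group G] [Field k] [AddCommGroup W] [Module k W]
    (ρ : G →* Module.End k W) (χ : G →* k) {τ : G} {a : k}
    (h : ρ τ + χ τ • ρ τ⁻¹ = a • (1 : Module.End k W)) (n : ℕ) :
    ρ (τ ^ n) + χ (τ ^ n) • ρ (τ ^ n)⁻¹ = (dk a (χ τ) n) • (1 : Module.End k W) := by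
  have hxy : ρ τ * (χ τ • ρ τ⁻¹) = χ τ • (1 : Module.End k W) := by
    rw [mul_smul_comm, ← map_mul, mul_inv_cancel, map_one]
  have hyx : (χ τ • ρ τ⁻¹) * ρ τ = χ τ • (1 : Module.End k W) := by
    rw [smul_mul_assoc, ← map_mul, inv_mul_cancel, map_one]
  have h1 := dk_eq hxy hyx h n
  have h2 := map_dk (algebraMap k (Module.End k W)) a (χ τ) n
  rw [Algebra.algebraMap_eq_smul_one, Algebra.algebraMap_eq_smul_one,
    Algebra.algebraMap_eq_smul_one] at h2
  rw [h2, h1, map_pow, map_pow, smul_pow, ← map_pow ρ, ← map_pow ρ, ← map_pow, inv_pow]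

variable {ℓ : ℕ} [Fact ℓ.Prime] {A : ValuationSubring Qbar} {m : ℕ} [NeZero m]
  {α e : ℕ → Qbar} {r : ℕ} {R : GQ →* Matrix (Fin r) (Fin r) (ZMod ℓ)}
  {T : ℕ → Matrix (Fin r) (Fin r) (ZMod ℓ)}
  {D : (ZMod m)ˣ →* Matrix (Fin r) (Fin r) (ZMod ℓ)} {ι : ZMod ℓ →+* ResidueField A}
  {x : Fin r → ResidueField A}

theorem exists_prime_unit (m : ℕ) [NeZero m] (u : (ZMod m)ˣ) :
    ∃ q : ℕ, q.Prime ∧ ¬ q ∣ m ∧ ((u : (ZMod m)ˣ) : ZMod m) = q := by
  obtain ⟨q, hq, hqp, hqu⟩ := Nat.forall_exists_prime_gt_and_eq_mod u.isUnit m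
  refine ⟨q, hqp, fun h => ?_, hqu.symm⟩
  exact absurd (Nat.le_of_dvd (Nat.pos_of_ne_zero (NeZero.ne m)) h) (not_le.mpr hq)

theorem exists_delta (h : GHM ℓ m A α e r R T D ι x) (hA : A.LiesOverPrime ℓ) (hℓm : ℓ ∣ m) :
    ∃ δ : (ZMod m)ˣ →* ResidueField A, (∀ u, actHom ι (D u) x = δ u • x) ∧
      ∀ q : ℕ, q.Prime → ¬ q ∣ m → ∀ u : (ZMod m)ˣ, (u : ZMod m) = q →
        ∃ h : e q ∈ A, (q : ResidueField A) * δ u = residue A ⟨e q, h⟩ := by
  have hq0 : ∀ q : ℕ, q.Prime → ¬ q ∣ m → (q : ResidueField A) ≠ 0 := by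
    intro q hq hqm
    haveI := FrobDens.charP_residueField A Fact.out hA
    rw [Ne, CharP.cast_eq_zero_iff (ResidueField A) ℓ]
    exact fun h1 => hqm (((Nat.prime_dvd_prime_iff_eq Fact.out hq).mp h1) ▸ hℓm)
  have h1 : ∀ u : (ZMod m)ˣ, ∃ c : ResidueField A, actHom ι (D u) x = c • x := by
    intro u
    obtain ⟨q, hq, hqm, hqu⟩ := exists_prime_unit m u
    obtain ⟨he, h2⟩ := h.eigD q hq hqm u hqu
    refine ⟨(q : ResidueField A)⁻¹ * residue A ⟨e q, he⟩, ?_⟩
    rw [mul_smul, ← h2, smul_smul, inv_mul_cancel₀ (hq0 q hq hqm), one_smul, actHom_apply]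
  choose δ hδ using h1
  refine ⟨{ toFun := δ, map_one' := ?_, map_mul' := fun u v => ?_ }, hδ, fun q hq hqm u hqu => ?_⟩
  · have h2 := hδ 1
    rw [map_one, map_one, Module.End.one_apply] at h2
    exact (smul_left_injective _ h.x0 (by simpa using h2)).symm
  · have h2 := hδ (u * v)
    rw [map_mul, map_mul, Module.End.mul_apply, hδ v, map_smul, hδ u, smul_smul] at h2
    exact (smul_left_injective _ h.x0 h2).symm.trans (mul_comm _ _)
  · obtain ⟨he, h2⟩ := h.eigD q hq hqm u hqu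
    refine ⟨he, ?_⟩
    rw [← actHom_apply, hδ, smul_smul] at h2
    exact smul_left_injective _ h.x0 h2

/-- the representation attached to a Galois-Hecke module -/
theorem exists_rep (h : GHM ℓ m A α e r R T D ι x) (hA : A.LiesOverPrime ℓ) (hℓm : ℓ ∣ m) :
    ∃ S : GQ →* Matrix (Fin 2) (Fin 2) (ResidueField A),
      (∃ L : IntermediateField ℚ Qbar, FiniteDimensional ℚ L ∧
        ∀ σ : GQ, (∀ x ∈ L, σ x = x) → S σ = 1) ∧
      ∀ q : ℕ, q.Prime → ¬ q ∣ m → ∃ (hα : α q ∈ A) (he : e q ∈ A),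
        ∀ B : ValuationSubring Qbar, B.LiesOverPrime q →
          (∀ σ ∈ B.inertiaSubgroupIn ℚ, S σ = 1) ∧
          ∀ σ : GQ, B.IsFrobeniusAt σ q → (S σ).trace = residue A ⟨α q, hα⟩ ∧
            (S σ).det = residue A ⟨e q, he⟩ := by
  obtain ⟨δ, hδ, hδe⟩ := exists_delta h hA hℓm
  obtain ⟨L₁, hL₁, h₁⟩ := h.cont
  obtain ⟨L₂, hL₂, h₂⟩ := cycM_level m
  let ρ : GQ →* Module.End (ResidueField A) (Fin r → ResidueField A) :=
    ((actHom ι).toMonoidHom).comp R
  have hρ : ∀ g, ρ g = actHom ι (R g) := fun g => rfl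
  let W := Wsp ρ x
  let ρ1 := resRep ρ W (Wsp_stable ρ x)
  let χ : GQ →* ResidueField A :=
    { toFun := fun g => ι (ZMod.castHom hℓm (ZMod ℓ) ((cycM m g : (ZMod m)ˣ) : ZMod m)) *
        δ (cycM m g)
      map_one' := by
        rw [map_one, Units.val_one, map_one, map_one, map_one, mul_one]
      map_mul' := fun g g' => by
        rw [map_mul, Units.val_mul, map_mul, map_mul, map_mul]
        ring }
  have hχ : ∀ g, χ g = ι (ZMod.castHom hℓm (ZMod ℓ) ((cycM m g : (ZMod m)ˣ) : ZMod m)) *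
        δ (cycM m g) := fun g => rfl
  have hχF : ∀ q : ℕ, q.Prime → ¬ q ∣ m → ∀ B : ValuationSubring Qbar, B.LiesOverPrime q →
      ∀ τ : GQ, B.IsFrobeniusAt τ q → χ τ = (q : ResidueField A) * δ (cycM m τ) := by
    intro q hq hqm B hB τ hτ
    rw [hχ, cycM_frob hq hB hτ hqm, map_natCast, map_natCast]
  -- the relation at Frobenius elements
  have hF : ∀ q : ℕ, q.Prime → ¬ q ∣ m → ∃ hα : α q ∈ A, ∀ B : ValuationSubring Qbar,
      B.LiesOverPrime q → ∀ τ : GQ, B.IsFrobeniusAt τ q →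
      ρ1 τ + χ τ • ρ1 τ⁻¹ = (residue A ⟨α q, hα⟩) • (1 : Module.End (ResidueField A) W) := by
    intro q hq hqm
    obtain ⟨hα, h3⟩ := h.eigT q hq hqm
    refine ⟨hα, fun B hB τ hτ => ?_⟩
    have h4 := h.frob q hq hqm B hB τ hτ (cycM m τ) (cycM_frob hq hB hτ hqm)
    have h5 : actHom ι (T q) = ρ τ + (q : ResidueField A) • (actHom ι (D (cycM m τ)) * ρ τ⁻¹) := by
      rw [h4, map_add, actHom_smul, map_mul, map_natCast]
      rfl
    have h6 : ∀ w ∈ W, actHom ι (T q) w = (residue A ⟨α q, hα⟩) • w :=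
      Wsp_scalar ρ x (fun g => by rw [hρ, ← map_mul, h.commT q hq hqm, map_mul])
        (by rw [actHom_apply]; exact h3)
    have h7 : ∀ w ∈ W, actHom ι (D (cycM m τ)) w = δ (cycM m τ) • w :=
      Wsp_scalar ρ x (fun g => by rw [hρ, ← map_mul, h.commD, map_mul]) (hδ _)
    ext w i
    have h8 := h6 (w : Fin r → ResidueField A) w.2
    rw [h5, LinearMap.add_apply, LinearMap.smul_apply, Module.End.mul_apply,
      h7 _ (Wsp_stable ρ x _ _ w.2), smul_smul, ← hχF q hq hqm B hB τ hτ] at h8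
    exact congrFun h8 i
  have hquad : ∀ g, ∃ t : ResidueField A,
      ρ1 g + χ g • ρ1 g⁻¹ = t • (1 : Module.End (ResidueField A) W) := by
    intro g
    have hfin : {q : ℕ | q ∣ m}.Finite := (Set.finite_le_nat m).subset
      (fun q hq => Nat.le_of_dvd (Nat.pos_of_ne_zero (NeZero.ne m)) hq)
    obtain ⟨q, hq, hqS, B, hB, τ, hτ, n, -, hn, -⟩ :=
      FrobDens.exists_frobenius (L₁ ⊔ L₂) _ hfin g
    obtain ⟨hα, h3⟩ := hF q hq hqS
    have h4 := quad_pow ρ1 χ (h3 B hB τ hτ) n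
    have hfix : ∀ y ∈ L₁ ⊔ L₂, (g⁻¹ * τ ^ n) y = y := by
      intro y hy
      rw [AlgEquiv.mul_apply, hn y hy]
      exact inv_smul_smul g y
    have e0 : τ ^ n = g * (g⁻¹ * τ ^ n) := by group
    have eR : R (g⁻¹ * τ ^ n) = 1 := h₁ _ (fun y hy => hfix y (le_sup_left (a := L₁) hy))
    have eC : cycM m (g⁻¹ * τ ^ n) = 1 := h₂ _ (fun y hy => hfix y (le_sup_right (a := L₁) hy))
    have eρ : ∀ s : GQ, R s = 1 → ρ1 s = 1 := by
      intro s hs
      ext w i
      rw [coe_resRep, hρ, hs, map_one]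
      rfl
    have eρ1 : ρ1 (τ ^ n) = ρ1 g := by rw [e0, map_mul, eρ _ eR, mul_one]
    have eρ2 : ρ1 (τ ^ n)⁻¹ = ρ1 g⁻¹ := by
      have h5 : (τ ^ n)⁻¹ = (g⁻¹ * τ ^ n)⁻¹ * g⁻¹ := by group
      have h6 : R (g⁻¹ * τ ^ n)⁻¹ = 1 := by
        have h7 : R (g⁻¹ * τ ^ n)⁻¹ * R (g⁻¹ * τ ^ n) = 1 := by
          rw [← map_mul, inv_mul_cancel, map_one]
        rwa [eR, mul_one] at h7
      rw [h5, map_mul, eρ _ h6, one_mul]
    have eχ : χ (τ ^ n) = χ g := by
      rw [e0, map_mul, hχ (g⁻¹ * τ ^ n), eC, Units.val_one, map_one, map_one, map_one, mul_one,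
        mul_one]
    rw [eρ1, eρ2, eχ] at h4
    exact ⟨_, h4⟩
  choose t ht using hquad
  have hnt : Nontrivial W := ⟨⟨⟨x, mem_Wsp ρ x⟩, 0, fun h0 => h.x0 (congrArg Subtype.val h0)⟩⟩
  haveI : IsAlgClosed (ResidueField A) := GoodRed.isAlgClosed_residueField A
  have hQ : QuadRel ρ1 t χ := ht
  obtain ⟨S, hS, hS1⟩ := exists_two_dim (ρ := ρ1) hQ (fun U hU hirr =>
    hirr.finrank_le_two_of_isAlgClosed (hQ.res U hU))
  have hSR : ∀ σ : GQ, R σ = 1 → cycM m σ = 1 → S σ = 1 := by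
    intro σ h3 h4
    apply hS1
    · ext w i
      rw [coe_resRep, hρ, h3, map_one]
      rfl
    · rw [hχ, h4, Units.val_one, map_one, map_one, map_one, mul_one]
  refine ⟨S, ⟨L₁ ⊔ L₂, inferInstance, fun σ hσ => hSR σ
    (h₁ _ (fun y hy => hσ y (le_sup_left (a := L₁) hy)))
    (h₂ _ (fun y hy => hσ y (le_sup_right (a := L₁) hy)))⟩, fun q hq hqm => ?_⟩
  obtain ⟨hα, h3⟩ := hF q hq hqm
  obtain ⟨u, hu⟩ : ∃ u : (ZMod m)ˣ, (u : ZMod m) = q := by
    have h4 : IsUnit (q : ZMod m) := by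
      rw [ZMod.isUnit_iff_coprime]
      exact (Nat.Prime.coprime_iff_not_dvd hq).mpr hqm
    exact ⟨h4.unit, h4.unit_spec⟩
  obtain ⟨he, h4⟩ := hδe q hq hqm u hu
  refine ⟨hα, he, fun B hB => ⟨fun σ hσ => hSR σ (h.inert q hq hqm B hB σ hσ)
    (cycM_inertia hq hB hσ hqm), fun σ hσ => ⟨?_, ?_⟩⟩⟩
  · rw [(hS σ).1]
    have h5 := (ht σ).symm.trans (h3 B hB σ hσ)
    have h6 := congrArg (fun f => f ⟨x, mem_Wsp ρ x⟩) h5
    simp only [LinearMap.smul_apply, Module.End.one_apply] at h6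
    have hx1 : (⟨x, mem_Wsp ρ x⟩ : W) ≠ 0 := fun h0 => h.x0 (congrArg Subtype.val h0)
    exact smul_left_injective _ hx1 h6
  · rw [(hS σ).2, hχF q hq hqm B hB σ hσ, ← h4]
    have h5 : cycM m σ = u := Units.ext ((cycM_frob hq hB hσ hqm).trans hu.symm)
    rw [h5]

end Step1

/-! ### Comparison of the representations for different levels -/

section Step3

variable {k : Type*} [Field k]

/-- two representations of finite level with the same traces and determinants at almost all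
Frobenius elements have the same traces and determinants -/
theorem same_trace (S S' : GQ →* Matrix (Fin 2) (Fin 2) k) (L L' : IntermediateField ℚ Qbar)
    [FiniteDimensional ℚ L] [FiniteDimensional ℚ L']
    (hL : ∀ σ : GQ, (∀ x ∈ L, σ x = x) → S σ = 1) (hL' : ∀ σ : GQ, (∀ x ∈ L', σ x = x) → S' σ = 1)
    (F : Set ℕ) (hF : F.Finite)
    (h : ∀ q : ℕ, q.Prime → q ∉ F → ∀ B : ValuationSubring Qbar, B.LiesOverPrime q →
      ∀ τ : GQ, B.IsFrobeniusAt τ q → (S τ).trace = (S' τ).trace ∧ (S τ).det = (S' τ).det)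
    (g : GQ) : (S g).trace = (S' g).trace ∧ (S g).det = (S' g).det := by
  obtain ⟨q, hq, hqS, B, hB, τ, hτ, n, -, hn, -⟩ :=
    FrobDens.exists_frobenius (L ⊔ L') F hF g
  have hfix : ∀ y ∈ L ⊔ L', (g⁻¹ * τ ^ n) y = y := by
    intro y hy
    rw [AlgEquiv.mul_apply, hn y hy]
    exact inv_smul_smul g y
  have e0 : τ ^ n = g * (g⁻¹ * τ ^ n) := by group
  have e1 : S (τ ^ n) = S g := by
    rw [e0, map_mul, hL _ (fun y hy => hfix y (le_sup_left (a := L) hy)), mul_one]
  have e2 : S' (τ ^ n) = S' g := by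
    rw [e0, map_mul, hL' _ (fun y hy => hfix y (le_sup_right (a := L) hy)), mul_one]
  obtain ⟨h1, h2⟩ := h q hq hqS B hB τ hτ
  rw [← e1, ← e2, map_pow, map_pow, trace_pow_two, trace_pow_two, h1, h2, Matrix.det_pow,
    Matrix.det_pow, h2]
  exact ⟨rfl, rfl⟩

end Step3

theorem repStatement : RepStatement := by
  intro N ℓ _ A hN hA α e hlev
  -- the representation of level `m`
  have hrep : ∀ p : ℕ, p.Prime → ¬ p ∣ N * ℓ → ∃ (m : ℕ) (_ : m ≠ 0) (_ : ¬ p ∣ m)
      (S : GQ →* Matrix (Fin 2) (Fin 2) (ResidueField A)),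
      (∃ L : IntermediateField ℚ Qbar, FiniteDimensional ℚ L ∧
        ∀ σ : GQ, (∀ x ∈ L, σ x = x) → S σ = 1) ∧
      ∀ q : ℕ, q.Prime → ¬ q ∣ m → ∃ (hα : α q ∈ A) (he : e q ∈ A),
        ∀ B : ValuationSubring Qbar, B.LiesOverPrime q →
          (∀ σ ∈ B.inertiaSubgroupIn ℚ, S σ = 1) ∧
          ∀ σ : GQ, B.IsFrobeniusAt σ q → (S σ).trace = residue A ⟨α q, hα⟩ ∧
            (S σ).det = residue A ⟨e q, he⟩ := by
    intro p hp hpN
    obtain ⟨m, hm0, hℓm, hpm, r, R, T, D, ι, x, h⟩ := hlev p hp hpN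
    haveI : NeZero m := ⟨hm0⟩
    obtain ⟨S, hS⟩ := exists_rep h hA hℓm
    exact ⟨m, hm0, hpm, S, hS⟩
  obtain ⟨p₀, hp₀, hp₀'⟩ := Nat.exists_infinite_primes (N * ℓ + 1)
  have hNℓ : N * ℓ ≠ 0 := mul_ne_zero hN (Fact.out : ℓ.Prime).ne_zero
  have hp₀N : ¬ p₀ ∣ N * ℓ := fun h => by
    have := Nat.le_of_dvd (Nat.pos_of_ne_zero hNℓ) h
    omega
  obtain ⟨m, hm0, -, S, ⟨L, hL, hSL⟩, hS⟩ := hrep p₀ hp₀' hp₀N
  obtain ⟨S', hS'tr, hS'det, hS'1, hS'σ⟩ := exists_ss S
  -- comparison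
  have hcmp : ∀ p : ℕ, p.Prime → ¬ p ∣ N * ℓ → ∃ (hα : α p ∈ A) (he : e p ∈ A),
      ∀ B : ValuationSubring Qbar, B.LiesOverPrime p →
        (∀ σ ∈ B.inertiaSubgroupIn ℚ, S' σ = 1) ∧
        ∀ σ : GQ, B.IsFrobeniusAt σ p → (S' σ).trace = residue A ⟨α p, hα⟩ ∧
          (S' σ).det = residue A ⟨e p, he⟩ := by
    intro p hp hpN
    obtain ⟨m₂, hm₂0, hpm₂, S₂, ⟨L₂, hL₂, hS₂L⟩, hS₂⟩ := hrep p hp hpN
    have hfin : {q : ℕ | q ∣ m * m₂}.Finite := (Set.finite_le_nat (m * m₂)).subset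
      (fun q hq => Nat.le_of_dvd (Nat.pos_of_ne_zero (mul_ne_zero hm0 hm₂0)) hq)
    have heq := same_trace S' S₂ L L₂ (fun σ hσ => hS'1 σ (hSL σ hσ)) hS₂L _ hfin
      (fun q hq hqm B hB τ hτ => by
        obtain ⟨hα, he, h1⟩ := hS q hq (fun h => hqm (h.mul_right _))
        obtain ⟨hα', he', h2⟩ := hS₂ q hq (fun h => hqm (h.mul_left _))
        obtain ⟨h3, h4⟩ := (h1 B hB).2 τ hτ
        obtain ⟨h5, h6⟩ := (h2 B hB).2 τ hτ
        rw [hS'tr, hS'det, h3, h4, h5, h6]
        exact ⟨rfl, rfl⟩)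
    obtain ⟨hα, he, h1⟩ := hS₂ p hp hpm₂
    refine ⟨hα, he, fun B hB => ⟨fun σ hσ => hS'σ σ (fun g => ?_) ?_, fun σ hσ => ?_⟩⟩
    · rw [(heq (g * σ)).1, (heq g).1, map_mul, (h1 B hB).1 σ hσ, mul_one]
    · rw [(heq σ).2, (h1 B hB).1 σ hσ, Matrix.det_one]
    · rw [(heq σ).1, (heq σ).2]
      exact (h1 B hB).2 σ hσ
  refine ⟨S'.toHomUnits, ⟨L, hL, fun σ hσ => Units.ext (hS'1 σ (hSL σ hσ))⟩,
    fun p hp hpN hpℓ => ?_⟩
  have hpN' : ¬ p ∣ N * ℓ := by
    intro h
    rcases hp.dvd_mul.mp h with h | h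
    · exact hpN h
    · exact hpℓ ((Nat.prime_dvd_prime_iff_eq hp Fact.out).mp h)
  obtain ⟨hα, he, h1⟩ := hcmp p hp hpN'
  exact ⟨hα, he, fun B hB => ⟨fun σ hσ => Units.ext ((h1 B hB).1 σ hσ), (h1 B hB).2⟩⟩

end Fermat.Agent.DSB
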