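import Fermat.Agent.DSB.BC
import Fermat.Agent.DSB.Rep
import Fermat.Agent.AnJacH.PadG
import Fermat.Agent.AnJacH.EigO

/-!
# (B): Galois-Hecke modules from eigenvectors
-/

set_option autoImplicit false
set_option linter.unusedSectionVars false
set_option linter.style.haveILetI false
set_option synthInstance.maxHeartbeats 400000

noncomputable section

namespace Fermat.Agent.DSB

open ModularCurve Fermat.Agent.ModFun Fermat.Agent.AnJac AlgebraicCurve IsLocalRing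
open Fermat.Agent.HeckeQ CongruenceSubgroup MatrixGroups UpperHalfPlane Matrix
open Fermat.Agent.AnJacH
open scoped Pointwise

local notation "Qbar" => AlgebraicClosure ℚ
local notation "GQ" => (AlgebraicClosure ℚ ≃ₐ[ℚ] AlgebraicClosure ℚ)

/-! ### admissibility -/

lemma sq_dvd_aux {m : ℕ} {d : ℤ} (h : ((m * m : ℕ) : ℤ) ∣ d ^ 2) : (m : ℤ) ∣ d := by
  have h1 : (m : ℤ) ^ 2 ∣ d ^ 2 := by
    rw [pow_two (m : ℤ)]
    exact_mod_cast h
  exact (Int.pow_dvd_pow_iff two_ne_zero).mp h1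

theorem adm_GB {m : ℕ} [NeZero m] (hm : 2 ∣ m ∨ 3 ∣ m) : Adm (m * m) (GB m) := by
  refine adm_GH fun γ htr => ?_
  set a : ℤ := (γ : SL(2, ℤ)) 0 0 with ha
  set d : ℤ := (γ : SL(2, ℤ)) 1 1 with hd
  set t : ℤ := a + d with ht
  have hc : ((m * m : ℕ) : ℤ) ∣ (γ : SL(2, ℤ)) 1 0 := by
    have h1 := γ.2
    rw [Gamma0_mem, ZMod.intCast_zmod_eq_zero_iff_dvd] at h1
    exact h1
  have hdet : a * d - (γ : SL(2, ℤ)) 0 1 * (γ : SL(2, ℤ)) 1 0 = 1 := by
    have h5 := Matrix.SpecialLinearGroup.det_coe (γ : SL(2, ℤ))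
    rw [Matrix.det_fin_two] at h5
    exact h5
  have hdvd : ((m * m : ℕ) : ℤ) ∣ d ^ 2 - t * d + 1 := by
    have h1 : d ^ 2 - t * d + 1 = -((γ : SL(2, ℤ)) 0 1 * (γ : SL(2, ℤ)) 1 0) := by
      rw [ht]; linear_combination -hdet
    rw [h1]
    exact (hc.mul_left _).neg_right
  have hdM : ((dM (m * m) m (dvd_mul_right m m) γ : (ZMod m)ˣ) : ZMod m) = (d : ZMod m) :=
    coe_dM _ _ _ _
  have habs := abs_le.mp htr
  have h4 : ∀ e : ℕ, e ∣ m * m → ((d : ZMod e) ^ 2 - (t : ZMod e) * d + 1 = 0) := by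
    intro e he
    have h1 : (e : ℤ) ∣ d ^ 2 - t * d + 1 := (Int.natCast_dvd_natCast.mpr he).trans hdvd
    have h2 := (ZMod.intCast_zmod_eq_zero_iff_dvd _ e).mpr h1
    push_cast at h2
    exact h2
  have hbad : t = 0 ∨ t = 1 ∨ t = -1 → False := by
    intro h
    rcases hm with h2 | h3
    · have h5 := h4 4 (by
        obtain ⟨c, rfl⟩ := h2
        exact ⟨c * c, by ring⟩)
      rcases h with h | h | h
      · rw [h] at h5
        revert h5
        generalize (d : ZMod 4) = x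
        push_cast
        revert x
        decide
      · rw [h] at h5
        revert h5
        generalize (d : ZMod 4) = x
        push_cast
        revert x
        decide
      · rw [h] at h5
        revert h5
        generalize (d : ZMod 4) = x
        push_cast
        revert x
        decide
    · have h5 := h4 9 (by
        obtain ⟨c, rfl⟩ := h3
        exact ⟨c * c, by ring⟩)
      rcases h with h | h | h
      · rw [h] at h5
        revert h5
        generalize (d : ZMod 9) = x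
        push_cast
        revert x
        decide
      · rw [h] at h5
        revert h5
        generalize (d : ZMod 9) = x
        push_cast
        revert x
        decide
      · rw [h] at h5
        revert h5
        generalize (d : ZMod 9) = x
        push_cast
        revert x
        decide
  have hcases : t = 2 ∨ t = -2 := by
    by_contra hcon
    apply hbad
    have h1 : -2 ≤ t := habs.1
    have h2 : t ≤ 2 := habs.2
    push Not at hcon
    obtain ⟨h3, h4⟩ := hcon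
    omega
  rcases hcases with h | h
  · have h5 : (m : ℤ) ∣ d - 1 := by
      apply sq_dvd_aux
      rw [h] at hdvd
      have : (d - 1) ^ 2 = d ^ 2 - 2 * d + 1 := by ring
      rw [this]; exact hdvd
    have h6 : dM (m * m) m (dvd_mul_right m m) γ = 1 := by
      apply Units.ext
      rw [hdM, Units.val_one]
      have := (ZMod.intCast_zmod_eq_zero_iff_dvd _ m).mpr h5
      push_cast at this
      exact sub_eq_zero.mp this
    rw [h6]
    exact one_mem _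
  · have h5 : (m : ℤ) ∣ d + 1 := by
      apply sq_dvd_aux
      rw [h] at hdvd
      have : (d + 1) ^ 2 = d ^ 2 - (-2) * d + 1 := by ring
      rw [this]; exact hdvd
    have h6 : dM (m * m) m (dvd_mul_right m m) γ = -1 := by
      apply Units.ext
      rw [hdM, Units.val_neg, Units.val_one]
      have := (ZMod.intCast_zmod_eq_zero_iff_dvd _ m).mpr h5
      push_cast at this
      exact eq_neg_of_add_eq_zero_left this
    rw [h6]
    exact Subgroup.mem_zpowers _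

lemma exists_dM (m : ℕ) [NeZero m] (u : (ZMod m)ˣ) :
    ∃ g : Gamma0 (m * m), dM (m * m) m (dvd_mul_right m m) g = u := by
  have h0 : Nat.Coprime (u : ZMod m).val m := ZMod.val_coe_unit_coprime u
  have h1 : IsCoprime (((u : ZMod m).val : ℕ) : ℤ) ((m * m : ℕ) : ℤ) :=
    Nat.isCoprime_iff_coprime.mpr (Nat.Coprime.mul_right h0 h0)
  obtain ⟨a, b, hab⟩ := h1
  let γ : SL(2,ℤ) := ⟨!![a, -b; ((m * m : ℕ) : ℤ), (((u : ZMod m).val : ℕ) : ℤ)], by
    rw [Matrix.det_fin_two_of]; linarith⟩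
  have h2 : γ ∈ Gamma0 (m * m) := by
    rw [Gamma0_mem]
    change ((((m * m : ℕ) : ℤ) : ℤ) : ZMod (m * m)) = 0
    rw [Int.cast_natCast, ZMod.natCast_self]
  refine ⟨⟨γ, h2⟩, Units.ext ?_⟩
  rw [coe_dM]
  change ((((((u : ZMod m).val : ℕ) : ℤ)) : ℤ) : ZMod m) = u
  rw [Int.cast_natCast, ZMod.natCast_zmod_val]

section Main

variable {N : ℕ} [NeZero N] {m : ℕ} [NeZero m] {h : m ∣ N} {H₀ : Subgroup (ZMod m)ˣ}
  {hΓ : Adm N (GH N m h H₀)} {θ : MfG hΓ} {hθ : IsGen hΓ θ}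

lemma mk_eq_of_dM {g g' : Gamma0 N} (hg : dM N m h g = dM N m h g') :
    (QuotientGroup.mk g : Dl N (GH N m h H₀)) = QuotientGroup.mk g' := by
  rw [QuotientGroup.eq, Subgroup.mem_subgroupOf]
  refine (mem_GH' (h := h) (H₀ := H₀) _).mpr ?_
  rw [map_mul, map_inv, hg, inv_mul_cancel]
  exact one_mem _

lemma isMat_LdG (hθ : IsGen hΓ θ) {n : ℕ} (g : Gamma0 N) :
    KSys.IsMat (KG hθ) (bG hΓ) (KG hθ) (bG hΓ) n (diaK ιQ hθ g)
      (im n (KSys.tm (bG hΓ) (LdG hΓ g))) := KSys.isMat_compat (compat_LdG ιQ hθ fQ g)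

include hθ in
lemma im_LdG_congr {n : ℕ} (hn : n ≠ 0) {g g' : Gamma0 N} (hg : dM N m h g = dM N m h g') :
    im n (KSys.tm (bG hΓ) (LdG hΓ g)) = im n (KSys.tm (bG hΓ) (LdG hΓ g')) := by
  refine (isMat_LdG hθ g).eq hn ?_
  intro u x hu
  rw [diaK_congr ιQ hθ (mk_eq_of_dM hg) u]
  exact isMat_LdG hθ g' u x hu

include hθ in
lemma im_LdG_mul {n : ℕ} (hn : n ≠ 0) (g g' : Gamma0 N) :
    im n (KSys.tm (bG hΓ) (LdG hΓ (g * g'))) =
      im n (KSys.tm (bG hΓ) (LdG hΓ g)) * im n (KSys.tm (bG hΓ) (LdG hΓ g')) := by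
  refine (isMat_LdG hθ (g * g')).eq hn ?_
  intro u x hu
  rw [← diaK_diaK]
  exact ((isMat_LdG hθ g').comp (isMat_LdG hθ g)) u x hu

include hθ in
lemma im_LdG_one {n : ℕ} (hn : n ≠ 0) : im n (KSys.tm (bG hΓ) (LdG hΓ 1)) = 1 := by
  refine (isMat_LdG hθ 1).eq hn ?_
  intro u x hu
  rw [diaK_one, Matrix.one_mulVec]
  exact hu

/-- inertia acts trivially modulo classes with constant reduction -/
lemma RdC.inertia (hQ : MfG hΓ ≤ QZ ℂ) {A : ValuationSubring Qbar} {σ : GQ}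
    (hσ : σ ∈ A.inertiaSubgroupIn ℚ) {u : FG hΓ ιQ} (hu : u ≠ 0) :
    RdC A (coeffMap (σ : Qbar →+* Qbar) (u : LaurentSeries Qbar) / (u : LaurentSeries Qbar)) := by
  obtain ⟨c, hc, y, hy, h1⟩ := sc_FG hQ ιQ A hu
  obtain ⟨hσA, hact⟩ := actK_inertia hσ
  have h2 := h1.gal σ hσA
  have e1 : coeffMap (actK σ hσA : _ →+* ResidueField A) y = y := by
    ext n
    rw [coeffMap_coeff]
    exact hact _
  rw [e1, map_mul, coeffMap_C] at h2
  have h3 := Rd.div' h2 h1 hy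
  rw [div_self hy] at h3
  have hσc : (σ : Qbar →+* Qbar) c ≠ 0 := (map_ne_zero _).mpr hc
  refine ⟨(σ : Qbar →+* Qbar) c * c⁻¹, mul_ne_zero hσc (inv_ne_zero hc), ?_⟩
  convert h3 using 1
  rw [map_mul, C_inv]
  field_simp

lemma KT_inertia (hQ : MfG hΓ ≤ QZ ℂ) {A : ValuationSubring Qbar} {σ : GQ}
    (hσ : σ ∈ A.inertiaSubgroupIn ℚ) {n : ℕ} (hn : n ≠ 0)
    (x : Fin (Module.finrank ℤ (LatG (GH N m h H₀))) → ZMod n) :
    KT hθ A n ((KG hθ).M (bG hΓ) hn σ *ᵥ x - x) := by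
  obtain ⟨u, hu⟩ := (KG hθ).exists_cls (bG hΓ) hn x
  refine ⟨actFG ιQ hθ fQ σ u / u, KSys.Cls.div hn (hu.act hn σ) hu, fun g => ?_⟩
  rw [map_div₀, diaK_act]
  have hv : diaK ιQ hθ g u ≠ 0 := (map_ne_zero _).mpr hu.ne_zero
  exact RdC.inertia hQ hσ hv

end Main

set_option maxHeartbeats 1000000 in
theorem exists_GHM (hgen : GenStatement) {m : ℕ} [NeZero m] (hm15 : 15 < m) (hm : 2 ∣ m ∨ 3 ∣ m)
    {ℓ : ℕ} [hℓ : Fact ℓ.Prime] (hℓm : ℓ ∣ m) {A : ValuationSubring Qbar}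
    (hA : A.LiesOverPrime ℓ) {α e : ℕ → Qbar} (heig : HasEig m A α e) :
    ∃ r R T D ι x, GHM ℓ m A α e r R T D ι x := by
  classical
  have hΓ : Adm (m * m) (GB m) := adm_GB hm
  obtain ⟨θ, hθ, hQ, hsep⟩ := hgen m hm15 hΓ
  obtain ⟨x, hx0, hx⟩ := heig hΓ
  have hn : ℓ ≠ 0 := hℓ.out.ne_zero
  have hch : CharP (ResidueField A) ℓ := FrobDens.charP_residueField A hℓ.out hA
  let ι : ZMod ℓ →+* ResidueField A := ZMod.castHom dvd_rfl _
  have hqmm : ∀ {q : ℕ}, q.Prime → ¬ q ∣ m → ¬ q ∣ m * m := fun hq hqm h' =>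
    (hq.dvd_mul.mp h').elim hqm hqm
  have hne : ∀ {q : ℕ}, q.Prime → ¬ q ∣ m → ¬ q ∣ ℓ := fun hq hqm h' => by
    have := (Nat.prime_dvd_prime_iff_eq hq hℓ.out).mp h'
    exact hqm (this ▸ hℓm)
  have h23 : 2 ∣ m * m ∨ 3 ∣ m * m := hm.imp (fun h => h.mul_right m) (fun h => h.mul_right m)
  -- the vanishing
  have hvan : ∀ {q : ℕ} (_ : q.Prime) (_ : ¬ q ∣ m) {B : ValuationSubring Qbar}
      (_ : B.LiesOverPrime q) {y : Fin (Module.finrank ℤ (LatG (GB m))) → ZMod ℓ},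
      KT hθ B ℓ y → y = 0 := fun {q} hq hqm {B} hB {y} hy => by
    obtain ⟨u, y', h1, h2⟩ := hsep q hq hqm B hB
    exact KT.eq_zero (hθ := hθ) hQ hq hB (hqmm hq hqm) h23 ⟨u, y', h1, h2⟩ (hne hq hqm) hy
  -- matrices
  have mext : ∀ (P Q : Matrix (Fin (Module.finrank ℤ (LatG (GB m))))
      (Fin (Module.finrank ℤ (LatG (GB m)))) (ZMod ℓ)), (∀ y, P *ᵥ y = Q *ᵥ y) → P = Q := by
    intro P Q hPQ
    ext i j
    have h1 := congrFun (hPQ (Pi.single j 1)) i
    rwa [Matrix.mulVec_single_one, Matrix.mulVec_single_one] at h1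
  choose gu hgu using exists_dM m
  have hgq : ∀ {q : ℕ}, q.Prime → ¬ q ∣ m → ∃ g : Gamma0 (m * m),
      ((dM (m * m) m (dvd_mul_right m m) g : (ZMod m)ˣ) : ZMod m) = q := fun hq hqm =>
    exists_g _ _ _ hq (hqmm hq hqm)
  let T : ℕ → Matrix (Fin (Module.finrank ℤ (LatG (GB m))))
      (Fin (Module.finrank ℤ (LatG (GB m)))) (ZMod ℓ) := fun q =>
    if hq : q.Prime ∧ ¬ q ∣ m then
      haveI : Fact q.Prime := ⟨hq.1⟩
      im ℓ (KSys.tm (bG hΓ) (LTG (m * m) m (dvd_mul_right m m) (H1 m) q (hqmm hq.1 hq.2)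
        (hgq hq.1 hq.2).choose (hgq hq.1 hq.2).choose_spec))
    else 0
  have hT : ∀ (q : ℕ) (hq : q.Prime) (hqm : ¬ q ∣ m), haveI : Fact q.Prime := ⟨hq⟩
      T q = im ℓ (KSys.tm (bG hΓ) (LTG (m * m) m (dvd_mul_right m m) (H1 m) q (hqmm hq hqm)
        (hgq hq hqm).choose (hgq hq hqm).choose_spec)) := fun q hq hqm => dif_pos ⟨hq, hqm⟩
  let D : (ZMod m)ˣ →* Matrix (Fin (Module.finrank ℤ (LatG (GB m))))
      (Fin (Module.finrank ℤ (LatG (GB m)))) (ZMod ℓ) :=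
    { toFun := fun u => im ℓ (KSys.tm (bG hΓ) (LdG hΓ (gu u)))
      map_one' := by
        rw [im_LdG_congr (hθ := hθ) hn (g' := 1) (by rw [hgu, map_one]), im_LdG_one (hθ := hθ) hn]
      map_mul' := fun u v => by
        rw [← im_LdG_mul (hθ := hθ) hn]
        exact im_LdG_congr (hθ := hθ) hn (by rw [hgu, map_mul, hgu, hgu]) }
  have hD : ∀ u, D u = im ℓ (KSys.tm (bG hΓ) (LdG hΓ (gu u))) := fun u => rfl
  have hDg : ∀ (u : (ZMod m)ˣ) (g : Gamma0 (m * m)), dM (m * m) m (dvd_mul_right m m) g = u →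
      D u = im ℓ (KSys.tm (bG hΓ) (LdG hΓ g)) := fun u g hg => by
    rw [hD]
    exact im_LdG_congr (hθ := hθ) hn (by rw [hgu, hg])
  have hmap : ∀ t : LatG (GB m) →+ LatG (GB m),
      (im ℓ (KSys.tm (bG hΓ) t)).map ι = km hΓ (ResidueField A) t := by
    intro t
    ext i j
    simp [AnJacH.im, km]
  refine ⟨_, (KG hθ).rep (bG hΓ) hn, T, D, ι, x, ?_⟩
  refine ⟨hx0, ?_, ?_, ?_, ?_, ?_, ?_, ?_⟩
  · obtain ⟨u, hu⟩ := (KG hθ).exists_control (bG hΓ) hn
    choose L hL h using fun j => exists_finite_fixedG (hθ := hθ) hQ (u j)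
    refine ⟨⨆ j, L j, IntermediateField.finiteDimensional_iSup_of_finite, fun σ hσ => ?_⟩
    exact hu σ fun j => h j σ fun x hx => hσ x (le_iSup L j hx)
  · intro q hq hqm σ
    haveI : Fact q.Prime := ⟨hq⟩
    haveI : NeZero q := ⟨hq.ne_zero⟩
    obtain ⟨ζ, hζ⟩ := exists_zeta q
    rw [hT q hq hqm]
    exact (KG hθ).M_comm (bG hΓ) hn (compat_LTG ιQ hθ fQ (hqmm hq hqm)
      (hgq hq hqm).choose_spec hζ) σ (fun u => FTG_act ιQ hθ fQ _ _ hζ σ u)
  · intro u σ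
    rw [hD]
    exact (KG hθ).M_comm (bG hΓ) hn (compat_LdG ιQ hθ fQ (gu u)) σ
      (fun v => diaK_act ιQ hθ fQ (gu u) σ v)
  · intro q hq hqm B hB τ hτ u hu
    haveI : Fact q.Prime := ⟨hq⟩
    haveI : NeZero q := ⟨hq.ne_zero⟩
    have hg := (hgq hq hqm).choose_spec
    rw [hT q hq hqm, hDg u (hgq hq hqm).choose (Units.ext (by rw [hg, hu]))]
    apply mext
    intro y
    have h1 := hvan hq hqm hB (KT_frob (hθ := hθ) hQ hB hτ (hqmm hq hqm) hg hn y)
    rw [sub_eq_zero] at h1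
    rw [h1, Matrix.add_mulVec, Matrix.smul_mulVec, ← Matrix.mulVec_mulVec]
    congr 1
    rw [Nat.cast_smul_eq_nsmul]
    rfl
  · intro q hq hqm B hB σ hσ
    apply mext
    intro y
    have h1 := hvan hq hqm hB (KT_inertia (hθ := hθ) hQ hσ hn y)
    rw [sub_eq_zero] at h1
    rw [Matrix.one_mulVec]
    exact h1
  · intro q hq hqm
    haveI : Fact q.Prime := ⟨hq⟩
    obtain ⟨h1, -⟩ := hx q (hqmm hq hqm) (hgq hq hqm).choose (hgq hq hqm).choose_spec
    obtain ⟨h2, h3⟩ := h1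
    refine ⟨h2, ?_⟩
    rw [hT q hq hqm, hmap]
    exact h3
  · intro q hq hqm u hu
    haveI : Fact q.Prime := ⟨hq⟩
    have hg := (hgq hq hqm).choose_spec
    obtain ⟨-, h1⟩ := hx q (hqmm hq hqm) (hgq hq hqm).choose hg
    obtain ⟨h2, h3⟩ := h1
    refine ⟨h2, ?_⟩
    rw [hDg u (hgq hq hqm).choose (Units.ext (by rw [hg, hu])), hmap]
    exact h3

/-- **(B)**, assuming (GEN) -/
theorem bStatement (hgen : GenStatement) : BStatement := by
  intro N ℓ _ A hN hA α e H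
  refine repStatement N ℓ A hN hA α e fun p hp hpN => ?_
  obtain ⟨m, hm0, hm15, hm, hℓm, hpm, heig⟩ := H p hp hpN
  exact ⟨m, hm0.out, hℓm, hpm, exists_GHM hgen hm15 hm hℓm hA heig⟩

end Fermat.Agent.DSB
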