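import Fermat.Agent.DS1.Defs
import Fermat.Agent.AnJacH.LevN

/-!
# (B) from mod `ℓ` eigenvectors to representations: statements of the pieces

* `GenStatement` (GEN): a generator of the function field of `Γ` from weight one Eisenstein series
* `RepStatement` (REP): from Galois-Hecke modules to `IsRepAt`
-/

set_option autoImplicit false
set_option linter.unusedSectionVars false

noncomputable section

namespace Fermat.Agent.DSB

open ModularCurve Fermat.Agent.ModFun Fermat.Agent.AnJac AlgebraicCurve IsLocalRing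
open Fermat.Agent.HeckeQ CongruenceSubgroup MatrixGroups UpperHalfPlane Matrix
open Fermat.Agent.AnJacH
open scoped Pointwise

local notation "Qbar" => AlgebraicClosure ℚ
local notation "GQ" => (AlgebraicClosure ℚ ≃ₐ[ℚ] AlgebraicClosure ℚ)

/-- the subgroup `{±1}` -/
abbrev H1 (m : ℕ) : Subgroup (ZMod m)ˣ := Subgroup.zpowers (-1)

/-- the group of level `m * m` -/
abbrev GB (m : ℕ) : Subgroup SL(2,ℤ) := GH (m * m) m (dvd_mul_right m m) (H1 m)

/-- **(GEN)** a generator of the function field of `GB m`, and a function separating the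
translates modulo every good prime (for example `θ = (Kf m (0,1) / 2πi) ^ 12 / Δ`, `u = θ` if
`q ≠ 2` and `u = (Kf m (0,1) - Kf m (0,2)) / (2 Kf m (0,2))` if `q = 2`). -/
def GenStatement : Prop :=
  ∀ (m : ℕ) [NeZero m], 15 < m → ∀ hΓ : Adm (m * m) (GB m),
    ∃ (θ : MfG hΓ) (hθ : IsGen hΓ θ), MfG hΓ ≤ QZ ℂ ∧
      ∀ q : ℕ, q.Prime → ¬ q ∣ m → ∀ A : ValuationSubring Qbar, A.LiesOverPrime q →
        ∃ (u : FG hΓ ιQ) (y : Gamma0 (m * m) → LaurentSeries (ResidueField A)),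
          (∀ g, Rd A (diaK ιQ hθ g u : LaurentSeries Qbar) (y g)) ∧
          ∀ g : Gamma0 (m * m), y g = y 1 → (g : SL(2,ℤ)) ∈ GB m

/-- the Galois-Hecke module modulo `ℓ` of level `m` -/
structure GHM (ℓ m : ℕ) (A : ValuationSubring Qbar) (α e : ℕ → Qbar) (r : ℕ)
    (R : GQ →* Matrix (Fin r) (Fin r) (ZMod ℓ)) (T : ℕ → Matrix (Fin r) (Fin r) (ZMod ℓ))
    (D : (ZMod m)ˣ →* Matrix (Fin r) (Fin r) (ZMod ℓ)) (ι : ZMod ℓ →+* ResidueField A)
    (x : Fin r → ResidueField A) : Prop where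
  x0 : x ≠ 0
  cont : ∃ L : IntermediateField ℚ Qbar, FiniteDimensional ℚ L ∧
    ∀ σ : GQ, (∀ x ∈ L, σ x = x) → R σ = 1
  commT : ∀ q : ℕ, q.Prime → ¬ q ∣ m → ∀ σ, R σ * T q = T q * R σ
  commD : ∀ u σ, R σ * D u = D u * R σ
  frob : ∀ q : ℕ, q.Prime → ¬ q ∣ m → ∀ B : ValuationSubring Qbar, B.LiesOverPrime q →
    ∀ τ : GQ, B.IsFrobeniusAt τ q → ∀ u : (ZMod m)ˣ, (u : ZMod m) = q →
      T q = R τ + (q : ZMod ℓ) • (D u * R τ⁻¹)
  inert : ∀ q : ℕ, q.Prime → ¬ q ∣ m → ∀ B : ValuationSubring Qbar, B.LiesOverPrime q →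
    ∀ σ ∈ B.inertiaSubgroupIn ℚ, R σ = 1
  eigT : ∀ q : ℕ, q.Prime → ¬ q ∣ m → ∃ h : α q ∈ A,
    (T q).map ι *ᵥ x = residue A ⟨α q, h⟩ • x
  eigD : ∀ q : ℕ, q.Prime → ¬ q ∣ m → ∀ u : (ZMod m)ˣ, (u : ZMod m) = q → ∃ h : e q ∈ A,
    (q : ResidueField A) • ((D u).map ι *ᵥ x) = residue A ⟨e q, h⟩ • x

/-- **(REP)** if for every prime `p ∤ N ℓ` there is a Galois-Hecke module of level `m` prime to
`p`, then there is a representation. (Eichler-Shimura and density give a quadratic relation on the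
span of the Galois orbit of `x`; this gives a two dimensional representation for one `m`, which
can be taken semisimple in the sense `(∀ g, tr ρ (g σ) = tr ρ g) → ρ σ = 1`; compare with the other
levels to get the primes dividing `m`.) -/
def RepStatement : Prop :=
  ∀ (N ℓ : ℕ) [Fact ℓ.Prime] (A : ValuationSubring Qbar), N ≠ 0 → A.LiesOverPrime ℓ →
    ∀ α e : ℕ → Qbar,
    (∀ p : ℕ, p.Prime → ¬ p ∣ N * ℓ → ∃ m : ℕ, m ≠ 0 ∧ ℓ ∣ m ∧ ¬ p ∣ m ∧
      ∃ r R T D ι x, GHM ℓ m A α e r R T D ι x) →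
    ∃ ρ : GQ →* GL (Fin 2) (ResidueField A), DS1.IsRepAt N α e ℓ A ρ

/-- the matrix of an operator on the lattice, with coefficients in `k` -/
def km {Γ : Subgroup SL(2,ℤ)} {N : ℕ} [NeZero N] (hΓ : Adm N Γ) (k : Type*) [Ring k]
    (t : LatG Γ →+ LatG Γ) :
    Matrix (Fin (Module.finrank ℤ (LatG Γ))) (Fin (Module.finrank ℤ (LatG Γ))) k :=
  (KSys.tm (bG hΓ) t).map (Int.cast : ℤ → k)

/-- the input of (B): mod `ℓ` eigenvectors for a level `m` -/
def HasEig (m : ℕ) [NeZero m] (A : ValuationSubring Qbar) (α e : ℕ → Qbar) : Prop :=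
  ∀ hΓ : Adm (m * m) (GB m),
    ∃ x : Fin (Module.finrank ℤ (LatG (GB m))) → ResidueField A, x ≠ 0 ∧
      ∀ (q : ℕ) [Fact q.Prime] (hqN : ¬ q ∣ m * m) (g : Gamma0 (m * m))
        (hg : ((dM (m * m) m (dvd_mul_right m m) g : (ZMod m)ˣ) : ZMod m) = q),
        (∃ h : α q ∈ A, km hΓ (ResidueField A) (LTG (m * m) m (dvd_mul_right m m) (H1 m) q hqN g hg)
            *ᵥ x = residue A ⟨α q, h⟩ • x) ∧
        (∃ h : e q ∈ A, (q : ResidueField A) • (km hΓ (ResidueField A) (LdG hΓ g) *ᵥ x) =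
            residue A ⟨e q, h⟩ • x)

/-- **(B)**: only needs, for every prime `p ∤ N ℓ`, one level `m` prime to `p` -/
def BStatement : Prop :=
  ∀ (N ℓ : ℕ) [Fact ℓ.Prime] (A : ValuationSubring Qbar), N ≠ 0 → A.LiesOverPrime ℓ →
    ∀ α e : ℕ → Qbar,
    (∀ p : ℕ, p.Prime → ¬ p ∣ N * ℓ → ∃ (m : ℕ) (_ : NeZero m), 15 < m ∧ (2 ∣ m ∨ 3 ∣ m) ∧
      ℓ ∣ m ∧ ¬ p ∣ m ∧ HasEig m A α e) →
    ∃ ρ : GQ →* GL (Fin 2) (ResidueField A), DS1.IsRepAt N α e ℓ A ρ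

end Fermat.Agent.DSB
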