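import Fermat.Agent.DSB.ChartF

/-!
# Places over `Qbar` and over `ℂ`; unramifiedness
-/

set_option autoImplicit false
set_option linter.unusedSectionVars false
set_option linter.style.haveILetI false
set_option synthInstance.maxHeartbeats 400000

noncomputable section

namespace Fermat.Agent.DSB

open ModularCurve Fermat.Agent.ModFun Fermat.Agent.AnJac AlgebraicCurve IsLocalRing
open Fermat.Agent.HeckeQ CongruenceSubgroup MatrixGroups UpperHalfPlane Matrix
open Fermat.Agent.AnJacH IntermediateField Module Fermat.Agent.Curves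
open Fermat.Agent.GenusX0
open scoped Pointwise

local notation "Qbar" => AlgebraicClosure ℚ
local notation "GQ" => (AlgebraicClosure ℚ ≃ₐ[ℚ] AlgebraicClosure ℚ)

section BC

variable {k : Type} [Field k] [IsAlgClosed k] [CharZero k] (ι : k →+* ℂ) {N : ℕ} [NeZero N]

/-- base change of the field of `Γ₀(N)` -/
def toFF : modularFunctionFieldFullC k N →+* FF N :=
  ((coeffMap ι).comp (modularFunctionFieldFullC k N).val.toRingHom).codRestrict
    (FF N).toSubfield.toSubring (fun x => coeffMap_mem_FF ι x.2)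

lemma coe_toFF (y : modularFunctionFieldFullC k N) :
    (toFF ι y : LaurentSeries ℂ) = coeffMap ι (y : LaurentSeries k) := rfl

lemma coeffMap_mem_Bk {x : LaurentSeries k} (hx : x ∈ Algebra.adjoin k (divisorExpansionsC k N)) :
    coeffMap ι x ∈ Algebra.adjoin ℂ (divisorExpansionsC ℂ N) := by
  induction hx using Algebra.adjoin_induction with
  | mem x hx =>
    obtain ⟨d, hd, hdN, rfl⟩ := hx
    rw [coeffMap_qExpand, coeffMap_jqModC]
    exact Algebra.subset_adjoin ⟨d, hd, hdN, rfl⟩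
  | algebraMap c =>
    rw [← C_eq_algebraMap, coeffMap_C, C_eq_algebraMap]
    exact Subalgebra.algebraMap_mem _ _
  | add x y _ _ hx hy => rw [map_add]; exact add_mem hx hy
  | mul x y _ _ hx hy => rw [map_mul]; exact mul_mem hx hy

theorem sigma_toFF (U : UDN N) (g : SL(2,ℤ)) :
    (sigma (RingHom.id ℂ) U g).comp (toFF ι) = sigma ι U g := by
  apply ringHom_ext_Bk
  intro x
  set x' : Bk ℂ N := ⟨coeffMap ι (x : LaurentSeries k), coeffMap_mem_Bk ι x.2⟩ with hx'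
  have h1 : toFF ι (algebraMap (Bk k N) (modularFunctionFieldFullC k N) x) =
      algebraMap (Bk ℂ N) (modularFunctionFieldFullC ℂ N) x' := Subtype.ext rfl
  rw [RingHom.comp_apply, h1, sigma_algebraMap, sigma_algebraMap]
  apply expB_eq
  have h2 := expB_spec ι U g x
  have h3 : fn (RingHom.id ℂ) (x' : LaurentSeries ℂ) = fn ι (x : LaurentSeries k) := by
    rw [fn_eq_ef, fn_eq_ef]
    change ef (coeffMap (RingHom.id ℂ) (coeffMap ι (x : LaurentSeries k))) = _
    rw [coeffMap_coeffMap, RingHom.id_comp]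
  rw [h3]
  exact h2

/-- **base change of places** of the field of `Γ₀(N)` -/
theorem exists_place_bc (v : Place k (modularFunctionFieldFullC k N)) :
    ∃ V : Place ℂ (FF N), ∀ y : modularFunctionFieldFullC k N, V.ord (toFF ι y) = v.ord y := by
  classical
  have hkey : ∀ (U : UDN N) (z : modularFunctionFieldFullC k N), IsLoc ι U z →
      IsLoc (RingHom.id ℂ) U (toFF ι z) → 0 < v.ord z →
      ∃ V : Place ℂ (FF N), ∀ y : modularFunctionFieldFullC k N, V.ord (toFF ι y) = v.ord y := by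
    intro U z h h' hv
    obtain ⟨x, hx⟩ := exists_ctr_eq h hv
    refine ⟨ctr h' x, fun y => ?_⟩
    have hV := ctr_pos h' x
    have c1 := card_ctr_fibre h v hv
    have c2 := card_ctr_fibre h' (ctr h' x) hV
    have hfib : (Finset.univ.filter fun y => ctr h y = v) =
        (Finset.univ.filter fun y => ctr h' y = ctr h' x) := by
      ext y
      rw [Finset.mem_filter, Finset.mem_filter, ← hx, ctr_eq_iff, ctr_eq_iff]
    rw [hfib, c2] at c1
    obtain ⟨ε, hε, h1⟩ := ctr_spec h x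
    obtain ⟨ε', hε', h2⟩ := ctr_spec h' x
    rw [hx] at h1
    have hs : ∀ y, sig (RingHom.id ℂ) U x (toFF ι y) = sig ι U x y := fun y =>
      RingHom.congr_fun (sigma_toFF ι U (x.out)⁻¹) y
    have hz0 : z ≠ 0 := by rintro rfl; simp at hv
    have hne : ∀ y : modularFunctionFieldFullC k N, y ≠ 0 → toFF ι y ≠ 0 := fun y hy =>
      (map_ne_zero _).mpr hy
    have h3 := h2 _ (hne z hz0)
    rw [hs, h1 z hz0, c1] at h3
    have h4 : (ε : ℤ) = ε' := mul_right_cancel₀ (by omega) h3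
    rcases eq_or_ne y 0 with rfl | hy
    · rw [map_zero]; simp
    have h5 := h2 _ (hne y hy)
    rw [hs, h1 y hy, ← h4] at h5
    exact (mul_left_cancel₀ (by omega) h5).symm
  rcases place_cases v with hv | ⟨c, hv⟩
  · refine hkey (cuspUDN N) (je k N)⁻¹ (isLoc_cusp (N := N) ι) ?_ (by rw [v.ord_inv]; omega)
    have h1 : toFF ι (je k N)⁻¹ = (je ℂ N)⁻¹ := by
      rw [map_inv₀]
      congr 1
      apply Subtype.ext
      exact coeffMap_jqModC _
    rw [h1]
    exact isLoc_cusp (N := N) (RingHom.id ℂ)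
  · obtain ⟨P, hP1, hP2, hP3⟩ := exists_isLoc (N := N) ι c
    refine hkey _ _ hP3 ?_ hv
    have h1 : toFF ι (je k N - algebraMap k (modularFunctionFieldFullC k N) c) =
        je ℂ N - algebraMap ℂ (modularFunctionFieldFullC ℂ N) (ι c) := by
      rw [map_sub]
      congr 1
      · apply Subtype.ext
        exact coeffMap_jqModC _
      · apply Subtype.ext
        rw [coe_toFF]
        change coeffMap ι (algebraMap k (LaurentSeries k) c) = algebraMap ℂ (LaurentSeries ℂ) (ι c)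
        rw [← C_eq_algebraMap, coeffMap_C, C_eq_algebraMap]
    rw [h1]
    exact isLoc_pt (RingHom.id ℂ) P (ι c) (by rw [hP1]; rfl) (by rw [hP2, hP1])

end BC

variable {A : ValuationSubring Qbar} {N : ℕ} [NeZero N] {m : ℕ} [NeZero m] {h : m ∣ N}
  {H₀ : Subgroup (ZMod m)ˣ} {hΓ : Adm N (GH N m h H₀)} {θ : MfG hΓ} (hθ : IsGen hΓ θ)

include hθ in
/-- **places of the field of `Γ` over `Qbar`** -/
theorem place_lift (hff : IsFunctionField Qbar (FG hΓ ιQ)) (w : Place Qbar (FG hΓ ιQ)) :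
    (∃ v : Place Qbar (modularFunctionFieldFullC Qbar N),
      ∀ f : modularFunctionFieldFullC Qbar N, w.ord (inN hΓ ιQ f) = v.ord f) ∧
    ∃ W : Place ℂ (MfG hΓ), ∀ x : FG hΓ ιQ, x ≠ 0 → w.ord x = W.ord (toC hΓ ιQ x) := by
  haveI := hff
  haveI : IsFunctionField Qbar (modularFunctionFieldFullC Qbar N) :=
    isFunctionField_fullC Qbar N (by exact_mod_cast NeZero.ne N)
  have hint := integralAlong (inN hΓ ιQ)
  set v := w.restrictAlong (inN hΓ ιQ) hint with hv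
  obtain ⟨V, hV⟩ := exists_place_bc ιQ v
  obtain ⟨p, ε₀, W₁, -, -, hW₁, -⟩ := exists_spot_place hΓ V
  have hne : ∀ x : FG hΓ ιQ, x ≠ 0 → toC hΓ ιQ x ≠ 0 := fun x hx => (map_ne_zero _).mpr hx
  have hρ : IsOrd Qbar (fun x : FG hΓ ιQ => W₁.ord (toC hΓ ιQ x)) := by
    refine ⟨fun x y hx hy => ?_, fun x y hx hy hxy => ?_, fun a ha => ?_⟩
    · change W₁.ord (toC hΓ ιQ (x * y)) = _
      rw [map_mul, W₁.ord_mul (hne x hx) (hne y hy)]
    · change min (W₁.ord (toC hΓ ιQ x)) (W₁.ord (toC hΓ ιQ y)) ≤ W₁.ord (toC hΓ ιQ (x + y))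
      have h1 := hne _ hxy
      rw [map_add] at h1 ⊢
      exact ord_add W₁ h1 (hne x hx) (hne y hy)
    · change W₁.ord (toC hΓ ιQ (algebraMap Qbar _ a)) = 0
      rw [toC_const]
      exact ord_algebraMap W₁ _
  have hres : ∀ y : modularFunctionFieldFullC Qbar N,
      W₁.ord (toC hΓ ιQ (inN hΓ ιQ y)) = v.ord y := by
    intro y
    have h1 : toC hΓ ιQ (inN hΓ ιQ y) = algebraMap (FF N) (MfG hΓ) (toFF ιQ y) := Subtype.ext rfl
    rw [h1, hW₁, hV]
  obtain ⟨t, ht0, ht⟩ := exists_ord_eq v 1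
  have ht0' : inN hΓ ιQ t ≠ 0 := (map_ne_zero _).mpr ht0
  obtain ⟨w₁, ε, hε, hw₁⟩ := exists_place_of_rho hρ ht0' (by rw [hres, ht]; exact one_ne_zero)
  have hε1 : ε = 1 := by
    have h1 := hw₁ _ ht0'
    rw [hres, ht] at h1
    have h2 : (ε : ℤ) ∣ 1 := ⟨_, h1⟩
    have h3 : ε ∣ 1 := by exact_mod_cast h2
    exact Nat.dvd_one.mp h3
  subst hε1
  have hw₁' : ∀ f : FG hΓ ιQ, f ≠ 0 → W₁.ord (toC hΓ ιQ f) = w₁.ord f := fun f hf => by
    have := hw₁ f hf
    rwa [Nat.cast_one, one_mul] at this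
  -- conjugacy
  letI : Algebra (modularFunctionFieldFullC Qbar N) (FG hΓ ιQ) := (inN hΓ ιQ).toRingHom.toAlgebra
  haveI : IsScalarTower Qbar (modularFunctionFieldFullC Qbar N) (FG hΓ ιQ) :=
    IsScalarTower.of_algebraMap_eq fun c => ((inN hΓ ιQ).commutes c).symm
  obtain ⟨⟨_, g, rfl⟩, hg⟩ := exists_conj (k := Qbar) (F := modularFunctionFieldFullC Qbar N)
    (F' := FG hΓ ιQ) (G := DK hθ) (fun g => (g : FG hΓ ιQ ≃ₐ[Qbar] FG hΓ ιQ)) rfl
    (fun _ _ _ => rfl)
    (fun x hx => mem_of_diaK_fixed ιQ hθ fun g => hx ⟨diaKE hθ g, ⟨g, rfl⟩⟩)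
    (w := w) (w' := w₁) 1 (w.ramificationIndexAlong (inN hΓ ιQ)) one_pos
    (ramificationIndexAlong_pos (inN hΓ ιQ) w) (fun y hy => by
      have h1 : w.ord (inN hΓ ιQ y) = w.ramificationIndexAlong (inN hΓ ιQ) * v.ord y :=
        Place.ord_restrictAlong (inN hΓ ιQ) hint w y
      have hy' : inN hΓ ιQ y ≠ 0 := (map_ne_zero _).mpr hy
      have h2 : w₁.ord (inN hΓ ιQ y) = v.ord y := by rw [← hw₁' _ hy', hres]
      change ((1 : ℕ) : ℤ) * w.ord (inN hΓ ιQ y) = _ * w₁.ord (inN hΓ ιQ y)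
      rw [h1, h2, Nat.cast_one, one_mul])
  have hg' : ∀ x, w.ord x = w₁.ord (diaK ιQ hθ g x) := hg
  refine ⟨⟨v, fun y => ?_⟩, ?_⟩
  · rw [hg', diaK_inN]
    rcases eq_or_ne y 0 with rfl | hy
    · rw [map_zero]; simp
    have hy' : inN hΓ ιQ y ≠ 0 := (map_ne_zero _).mpr hy
    rw [← hw₁' _ hy', hres]
  · obtain ⟨W, hW⟩ := exists_place_comap (k := ℂ) (k' := ℂ) (diaE hΓ g).toRingEquiv
      (fun c => ⟨c, (diaE hΓ g).commutes c⟩) W₁
    refine ⟨W, fun x hx => ?_⟩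
    have hx' : diaK ιQ hθ g x ≠ 0 := (map_ne_zero _).mpr hx
    rw [hg', ← hw₁' _ hx', toC_diaK, hW]
    rfl

include hθ in
theorem unram (hff : IsFunctionField Qbar (FG hΓ ιQ)) : Unram hΓ := fun w =>
  (place_lift hθ hff w).1

include hθ in
/-- divisibility of the divisors over `Qbar` -/
theorem dvd_ord_ClG (hff : IsFunctionField Qbar (FG hΓ ιQ)) {n : ℕ} {φ : LatG (GH N m h H₀)}
    {u : FG hΓ ιQ} (hu : ClG hΓ ιQ n φ u) (w : Place Qbar (FG hΓ ιQ)) : (n : ℤ) ∣ w.ord u := by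
  obtain ⟨W, hW⟩ := (place_lift hθ hff w).2
  rw [hW u (ClG.ne_zero ιQ hu)]
  exact ClG.dvd_ord ιQ hu W

/-- **no classes with constant reduction** at good primes -/
theorem KT.eq_zero (hQ : MfG hΓ ≤ QZ ℂ) {q : ℕ} (hq : q.Prime) (hA : A.LiesOverPrime q)
    (hqN : ¬ q ∣ N) (h23 : 2 ∣ N ∨ 3 ∣ N) (hs : SepAt hθ A) {n : ℕ} (hn : ¬ q ∣ n)
    {x : Fin (Module.finrank ℤ (LatG (GH N m h H₀))) → ZMod n} (hx : KT hθ A n x) : x = 0 := by
  have hn0 : n ≠ 0 := fun h => hn (h ▸ dvd_zero q)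
  obtain ⟨u, hu, hu'⟩ := hx
  have hff := ff_F hQ hq hA hqN hs
  obtain ⟨c, hc, h1⟩ := RdA.self hθ hu'
  obtain ⟨d, hd⟩ := IsAlgClosed.exists_pow_nat_eq c (Nat.pos_of_ne_zero hn0)
  have hd0 : d ≠ 0 := by
    rintro rfl
    rw [zero_pow hn0] at hd
    exact hc hd.symm
  set dF : FG hΓ ιQ := algebraMap Qbar _ d with hdF
  have hdF0 : dF ≠ 0 := (map_ne_zero _).mpr hd0
  have hcu : (KG hθ).Cls (bG hΓ) n (dF ^ n * u) x := by
    have := (KSys.cls_pow (K := KG hθ) (b := bG hΓ) hn0 hdF0).mul hu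
    rwa [zero_add] at this
  have hR : Rd A ((dF ^ n * u : FG hΓ ιQ) : LaurentSeries Qbar) 1 := by
    have e1 : ((dF ^ n * u : FG hΓ ιQ) : LaurentSeries Qbar) =
        HahnSeries.C c * (u : LaurentSeries Qbar) := by
      have e2 : ((dF : FG hΓ ιQ) : LaurentSeries Qbar) = HahnSeries.C d := by
        rw [C_eq_algebraMap]; rfl
      rw [← hd, map_pow, ← e2]; rfl
    rw [e1]
    exact h1
  have hcu' := hcu
  obtain ⟨φ, hφ, -⟩ := hcu'
  obtain ⟨w, hw⟩ := kummerF hQ hq hA hqN h23 hs (unram hθ hff) hn hR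
    (fun P => dvd_ord_ClG hθ hff hφ P)
  have hw0 : w ≠ 0 := by
    rintro rfl
    rw [zero_pow hn0] at hw
    exact mul_ne_zero (pow_ne_zero n hdF0) hu.ne_zero hw
  rw [hw] at hcu
  exact hcu.unique hn0 (KSys.cls_pow hn0 hw0)

end Fermat.Agent.DSB
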