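import Fermat.Agent.DSB.Sep
import Fermat.Agent.GoodRed.HauptGood
import Fermat.Agent.HeckeQ.Inst

/-!
# Charts for the field of `Γ`
-/

set_option autoImplicit false
set_option linter.unusedSectionVars false
set_option linter.style.haveILetI false
set_option synthInstance.maxHeartbeats 400000

noncomputable section

namespace Fermat.Agent.DSB

open ModularCurve Fermat.Agent.ModFun Fermat.Agent.AnJac AlgebraicCurve IsLocalRing
open Fermat.Agent.HeckeQ CongruenceSubgroup MatrixGroups UpperHalfPlane Matrix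
open Fermat.Agent.AnJacH IntermediateField Module Fermat.Agent.Curves
open Fermat.Agent.GenusX0 (je transcendental_je)
open scoped Pointwise

local notation "Qbar" => AlgebraicClosure ℚ
local notation "GQ" => (AlgebraicClosure ℚ ≃ₐ[ℚ] AlgebraicClosure ℚ)

variable {A : ValuationSubring Qbar} {N : ℕ} [NeZero N]

/-- a chart with ramification data at level `N` -/
def BChart (A : ValuationSubring Qbar) (N : ℕ) [NeZero N] : Prop :=
  ∃ (hNK : (N : Qbar) ≠ 0) (hNκ : (N : ResidueField A) ≠ 0)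
    (t : modularFunctionFieldFullC Qbar N) (tb : modularFunctionFieldFullC (ResidueField A) N),
    haveI := isFunctionField_fullC Qbar N hNK
    haveI := isFunctionField_fullC (ResidueField A) N hNκ
    GoodRed.Chart (GoodRed.modGauss (residue A) N residue_surjective hNK hNκ) t tb ∧
    GenusX0.thetaFun (tb : LaurentSeries (ResidueField A)) ≠ 0 ∧
    ∃ (b : A) (M : ℕ), residue A b ≠ 0 ∧
      (∀ w : Place Qbar (modularFunctionFieldFullC Qbar N), w.ord t ≤ M) ∧
      (∀ w : Place Qbar (modularFunctionFieldFullC Qbar N), - w.ord t ≤ M) ∧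
      (∀ w : Place Qbar (modularFunctionFieldFullC Qbar N),
        w.ord (t - algebraMap Qbar _ (b : Qbar)) ≤ M) ∧
      ∀ (w : Place Qbar (modularFunctionFieldFullC Qbar N)) (c : Qbar), c ≠ 0 → c ≠ b →
        w.ord (t - algebraMap Qbar _ c) ≤ 1

theorem bChart_of_haup {p : ℕ} [NeZero p] (h : GoodRed.Haup p) (hNK : (N : Qbar) ≠ 0)
    (hNκ : (N : ResidueField A) ≠ 0) (hp : (p : Qbar) ≠ 0) (hpκ : (p : ResidueField A) ≠ 0)
    (hpN : p ∣ N) : BChart A N := by
  haveI := isFunctionField_fullC Qbar N hNK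
  haveI := isFunctionField_fullC (ResidueField A) N hNκ
  have hC := GoodRed.hauptChart (residue A) N h residue_surjective hNK hNκ hp hpκ hpN
  have hb : residue A ((h.b : ℤ) : A) ≠ 0 := by
    rw [map_intCast]
    exact h.b_ne _ hpκ
  have hbK : (((h.b : ℤ) : A) : Qbar) = h.b := by simp
  refine ⟨hNK, hNκ, _, _, hC, GoodRed.thetaFun_ne_zero_of_coeff (by
      change (coeffMap (Int.castRingHom (ResidueField A)) h.T).coeff (-1) ≠ 0
      rw [(h.ld.coeffMap (Int.castRingHom (ResidueField A))).2]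
      simp), ((h.b : ℤ) : A), 3 + N, hb, ?_, ?_, ?_, ?_⟩
  · intro w
    have := h.ord_le N hp hpN ιQ w
    push_cast
    omega
  · intro w
    have := h.neg_ord_le N hp hpN ιQ w
    push_cast
    omega
  · intro w
    rw [hbK]
    have := h.ord_sub_le N hp hpN ιQ w (h.b_ne Qbar hp)
    push_cast
    omega
  · intro w c h0 h1
    rw [hbK] at h1
    exact h.ord_sub_le_one N hp hpN ιQ w h0 h1

theorem bChart_of_six (h6 : (6 : ResidueField A) ≠ 0) (hNK : (N : Qbar) ≠ 0)
    (hNκ : (N : ResidueField A) ≠ 0) : BChart A N := by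
  haveI := isFunctionField_fullC Qbar N hNK
  haveI := isFunctionField_fullC (ResidueField A) N hNκ
  have h1728 : residue A (1728 : A) ≠ 0 := by
    rw [map_ofNat, show (1728 : ResidueField A) = 6 ^ 3 * 8 by norm_num]
    have h2 : (2 : ResidueField A) ≠ 0 := fun h => h6 (by
      rw [show (6 : ResidueField A) = 2 * 3 by norm_num, h, zero_mul])
    exact mul_ne_zero (pow_ne_zero _ h6)
      (by rw [show (8 : ResidueField A) = 2 ^ 3 by norm_num]; exact pow_ne_zero _ h2)
  have hC := GoodRed.modChart (residue A) N residue_surjective hNK hNκ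
  have hb : ((1728 : A) : Qbar) = 1728 := rfl
  refine ⟨hNK, hNκ, _, _, hC, GoodRed.thetaFun_ne_zero_of_coeff (by
      change (jqModC (ResidueField A)).coeff (-1) ≠ 0
      rw [coeff_jqModC_neg_one]
      exact one_ne_zero), (1728 : A), 3 + N, h1728, ?_, ?_, ?_, ?_⟩
  · intro w
    have := GenusX0.ord_je_le_three w ιQ
    push_cast
    omega
  · intro w
    have := GenusX0.neg_ord_je_le w ιQ
    push_cast
    omega
  · intro w
    have := GenusX0.ord_je_sub_le_two w ιQ
    rw [hb]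
    push_cast
    omega
  · intro w c h0 h1
    exact GenusX0.ord_je_sub_le_one w ιQ h0 h1

/-- existence of base charts -/
theorem exists_bChart {q : ℕ} (hq : q.Prime) (hA : A.LiesOverPrime q) (hqN : ¬ q ∣ N)
    (h23 : 2 ∣ N ∨ 3 ∣ N) : BChart A N := by
  have hch : CharP (ResidueField A) q := FrobDens.charP_residueField A hq hA
  have hcast : ∀ n : ℕ, ¬ q ∣ n → (n : ResidueField A) ≠ 0 := fun n hn => by
    rw [Ne, CharP.cast_eq_zero_iff (ResidueField A) q]; exact hn
  have hNK : (N : Qbar) ≠ 0 := by exact_mod_cast NeZero.ne N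
  have hNκ := hcast N hqN
  by_cases h6 : (6 : ResidueField A) = 0
  · have h6' : q ∣ 6 := by
      rw [← CharP.cast_eq_zero_iff (ResidueField A) q]; exact_mod_cast h6
    have hq23 : q = 2 ∨ q = 3 := by
      have h7 : q ∣ 2 * 3 := h6'
      rcases (Nat.Prime.dvd_mul hq).mp h7 with h8 | h8
      · exact Or.inl ((Nat.prime_dvd_prime_iff_eq hq Nat.prime_two).mp h8)
      · exact Or.inr ((Nat.prime_dvd_prime_iff_eq hq Nat.prime_three).mp h8)
    rcases hq23 with rfl | rfl
    · have h3N : 3 ∣ N := h23.resolve_left hqN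
      exact bChart_of_haup GoodRed.haup3 hNK hNκ (by norm_num) (hcast 3 (by norm_num)) h3N
    · have h2N : 2 ∣ N := h23.resolve_right hqN
      exact bChart_of_haup GoodRed.haup2 hNK hNκ (by norm_num) (hcast 2 (by norm_num)) h2N
  · exact bChart_of_six h6 hNK hNκ

/-! ### the Gauss reduction of the field of `Γ` -/

section G

variable {Γ : Subgroup SL(2,ℤ)} {hΓ : Adm N Γ}

/-- the Gauss reduction of the field of `Γ` -/
def gaussF (hQ : MfG hΓ ≤ QZ ℂ) (A : ValuationSubring Qbar) :
    GoodRed.GaussRed A (residue A) (FG hΓ ιQ) (redF A (FG hΓ ιQ)) :=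
  (GoodRed.laurentPre (residue A) (FG hΓ ιQ).val.toRingHom
    (redF A (FG hΓ ιQ)).val.toRingHom (fun _ => rfl) (fun _ => rfl)).gauss
    (fun y => by
      obtain ⟨u, hu, h⟩ := y.2
      exact ⟨⟨u, hu⟩, h⟩)
    (fun x hx => by
      obtain ⟨c, hc, y, hy, h⟩ := sc_FG hQ ιQ A hx
      have h2 : ((algebraMap Qbar (FG hΓ ιQ) c * x : FG hΓ ιQ) : LaurentSeries Qbar) =
          HahnSeries.C c * (x : LaurentSeries Qbar) := by
        rw [C_eq_algebraMap]; rfl
      rw [← h2] at h
      exact ⟨c, hc, ⟨y, _, SetLike.coe_mem _, h⟩, fun h0 => hy (congrArg Subtype.val h0), h⟩)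

theorem gaussF_R {hQ : MfG hΓ ≤ QZ ℂ} {x : FG hΓ ιQ} {y : redF A (FG hΓ ιQ)} :
    (gaussF hQ A).R x y ↔ Rd A (x : LaurentSeries Qbar) (y : LaurentSeries (ResidueField A)) :=
  GoodRed.PreRed.gauss_R _ _ _

end G

section Chart

variable {m : ℕ} [NeZero m] {h : m ∣ N} {H₀ : Subgroup (ZMod m)ˣ}
  {hΓ : Adm N (GH N m h H₀)} {θ : MfG hΓ} {hθ : IsGen hΓ θ}

lemma card_Dl_pos (hΓ : Adm N (GH N m h H₀)) : 0 < Nat.card (Dl N (GH N m h H₀)) := by
  have := hΓ.finite
  exact Nat.card_pos

theorem ff_F (hQ : MfG hΓ ≤ QZ ℂ) {q : ℕ} (hq : q.Prime) (hA : A.LiesOverPrime q)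
    (hqN : ¬ q ∣ N) (hs : SepAt hθ A) : IsFunctionField Qbar (FG hΓ ιQ) := by
  refine isFunctionField_of_relfinrank _ (transcendental_jqModC Qbar)
    (FNle hΓ (jqModC_mem_full Qbar N)) ?_
  have h1 : Qbar⟮jqModC Qbar⟯ ≤ modularFunctionFieldFullC Qbar N := by
    rw [IntermediateField.adjoin_simple_le_iff]
    exact jqModC_mem_full Qbar N
  rw [← relfinrank_mul_relfinrank h1 (FNle hΓ), (degrees hQ hq hA hqN hs).1,
    ModFun.relfinrank_modularFunctionField Qbar N (by exact_mod_cast NeZero.ne N)]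
  exact mul_ne_zero (ModFun.dedekindPsi_pos (NeZero.ne N)) (card_Dl_pos hΓ).ne'

lemma le_redF {q : ℕ} (hq : q.Prime) (hA : A.LiesOverPrime q)
    (hqN : ¬ q ∣ N) : modularFunctionFieldFullC (ResidueField A) N ≤ redF A (FG hΓ ιQ) := by
  rw [← redF_FN hq hA hqN]
  exact redF_mono (FNle hΓ)

theorem ff_Fb (hQ : MfG hΓ ≤ QZ ℂ) {q : ℕ} (hq : q.Prime) (hA : A.LiesOverPrime q)
    (hqN : ¬ q ∣ N) (hs : SepAt hθ A) : IsFunctionField (ResidueField A) (redF A (FG hΓ ιQ)) := by
  have : CharP (ResidueField A) q := FrobDens.charP_residueField A hq hA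
  have hNκ : (N : ResidueField A) ≠ 0 := by
    rw [Ne, CharP.cast_eq_zero_iff (ResidueField A) q]; exact hqN
  refine isFunctionField_of_relfinrank _ (transcendental_jqModC (ResidueField A))
    (le_redF hq hA hqN (jqModC_mem_full _ N)) ?_
  have h1 : (ResidueField A)⟮jqModC (ResidueField A)⟯ ≤
      modularFunctionFieldFullC (ResidueField A) N := by
    rw [IntermediateField.adjoin_simple_le_iff]
    exact jqModC_mem_full _ N
  rw [← relfinrank_mul_relfinrank h1 (le_redF hq hA hqN), (degrees hQ hq hA hqN hs).2,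
    ModFun.relfinrank_modularFunctionField (ResidueField A) N hNκ]
  exact mul_ne_zero (ModFun.dedekindPsi_pos (NeZero.ne N)) (card_Dl_pos hΓ).ne'

/-- degrees over a subfield generated by one element -/
lemma finrank_sub {k : Type*} [Field k] {E F : IntermediateField k (LaurentSeries k)} (hEF : E ≤ F)
    (t : E) : finrank k⟮(⟨t, hEF t.2⟩ : F)⟯ F = finrank k⟮t⟯ E * relfinrank E F := by
  have h1 : k⟮(t : LaurentSeries k)⟯ ≤ E := by
    rw [IntermediateField.adjoin_simple_le_iff]
    exact t.2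
  rw [finrank_adjoin_eq_relfinrank, finrank_adjoin_eq_relfinrank,
    relfinrank_mul_relfinrank h1 hEF]

lemma transc_iff {k : Type*} [Field k] {F : IntermediateField k (LaurentSeries k)} (t : F) :
    Transcendental k t ↔ Transcendental k (t : LaurentSeries k) := by
  have := isAlgebraic_algHom_iff F.val F.val.injective (a := t)
  exact not_congr this.symm

set_option maxHeartbeats 2000000 in
theorem chartF (hQ : MfG hΓ ≤ QZ ℂ) {q : ℕ} (hq : q.Prime) (hA : A.LiesOverPrime q)
    (hqN : ¬ q ∣ N) (hs : SepAt hθ A) {hNK : (N : Qbar) ≠ 0} {hNκ : (N : ResidueField A) ≠ 0}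
    {t : modularFunctionFieldFullC Qbar N} {tb : modularFunctionFieldFullC (ResidueField A) N}
    (hC : haveI := isFunctionField_fullC Qbar N hNK
      haveI := isFunctionField_fullC (ResidueField A) N hNκ
      GoodRed.Chart (GoodRed.modGauss (residue A) N residue_surjective hNK hNκ) t tb)
    (hd : GenusX0.thetaFun (tb : LaurentSeries (ResidueField A)) ≠ 0) :
    haveI := ff_F hQ hq hA hqN hs
    haveI := ff_Fb hQ hq hA hqN hs
    GoodRed.Chart (gaussF hQ A) (⟨t, FNle hΓ t.2⟩ : FG hΓ ιQ)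
      (⟨tb, le_redF hq hA hqN tb.2⟩ : redF A (FG hΓ ιQ)) := by
  haveI := isFunctionField_fullC Qbar N hNK
  haveI := isFunctionField_fullC (ResidueField A) N hNκ
  haveI := ff_F hQ hq hA hqN hs
  haveI := ff_Fb hQ hq hA hqN hs
  have htr : Transcendental Qbar (⟨t, FNle hΓ t.2⟩ : FG hΓ ιQ) := by
    rw [transc_iff]
    exact (transc_iff t).mp hC.tr
  have htrb : Transcendental (ResidueField A) (⟨tb, le_redF hq hA hqN tb.2⟩ : redF A (FG hΓ ιQ)) := by
    rw [transc_iff]
    exact (transc_iff tb).mp hC.trb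
  haveI := finiteDimensional_adjoin_simple htr
  exact {
    R := gaussF_R.mpr ((GoodRed.modGauss_R (residue A) N).mp hC.R)
    tr := htr
    trb := htrb
    sep := by infer_instance
    sepb := GoodRed.isSeparable_of_derivation htrb (GenusX0.thetaDer
      (redF A (FG hΓ ιQ)).val.toRingHom (RingHom.id (ResidueField A))
      (fun c => (ModFun.C_eq_algebraMap (ResidueField A) c).symm)) hd
    finrank_eq := by
      obtain ⟨h1, h2⟩ := degrees hQ hq hA hqN hs
      rw [finrank_sub (FNle hΓ) t, finrank_sub (le_redF hq hA hqN) tb, h1, h2, hC.finrank_eq] }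

/-- unramified places -/
def Unram (hΓ : Adm N (GH N m h H₀)) : Prop :=
  ∀ w : Place Qbar (FG hΓ ιQ), ∃ v : Place Qbar (modularFunctionFieldFullC Qbar N),
    ∀ f : modularFunctionFieldFullC Qbar N, w.ord (inN hΓ ιQ f) = v.ord f

set_option maxHeartbeats 2000000 in
/-- **Kummer lemma** for the field of `Γ` -/
theorem kummerF (hQ : MfG hΓ ≤ QZ ℂ) {q : ℕ} (hq : q.Prime) (hA : A.LiesOverPrime q)
    (hqN : ¬ q ∣ N) (h23 : 2 ∣ N ∨ 3 ∣ N) (hs : SepAt hθ A) (hun : Unram hΓ) {n : ℕ}
    (hn : ¬ q ∣ n) {u : FG hΓ ιQ} (hu : Rd A (u : LaurentSeries Qbar) 1)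
    (hdiv : ∀ P : Place Qbar (FG hΓ ιQ), (n : ℤ) ∣ P.ord u) : ∃ w : FG hΓ ιQ, u = w ^ n := by
  have hch : CharP (ResidueField A) q := FrobDens.charP_residueField A hq hA
  obtain ⟨hNK, hNκ, t, tb, hC, hd, b, M, hb, h0, h0', h1, h2⟩ := exists_bChart hq hA hqN h23
  haveI := ff_F hQ hq hA hqN hs
  haveI := ff_Fb hQ hq hA hqN hs
  have hCF := chartF hQ hq hA hqN hs hC hd
  have hsub : ∀ c : Qbar, (⟨t, FNle hΓ t.2⟩ : FG hΓ ιQ) - algebraMap Qbar _ c =
      inN hΓ ιQ (t - algebraMap Qbar _ c) := fun c => by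
    rw [map_sub, AlgHom.commutes]; rfl
  have hg1 := hCF.good residue_surjective b hb M (fun w => by
      obtain ⟨v, hv⟩ := hun w
      exact (hv t).trans_le (h0 v)) (fun w => by
      obtain ⟨v, hv⟩ := hun w
      rw [hsub, hv]
      exact h1 v) (fun w c hc hcb => by
      obtain ⟨v, hv⟩ := hun w
      rw [hsub, hv]
      exact h2 v c hc hcb)
  have hg2 := hCF.good_inv residue_surjective b hb M (fun w => by
      obtain ⟨v, hv⟩ := hun w
      have h3 : w.ord (⟨t, FNle hΓ t.2⟩ : FG hΓ ιQ) = v.ord t := hv t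
      rw [h3]
      exact h0' v) (fun w => by
      obtain ⟨v, hv⟩ := hun w
      rw [hsub, hv]
      exact h1 v) (fun w c hc hcb => by
      obtain ⟨v, hv⟩ := hun w
      rw [hsub, hv]
      exact h2 v c hc hcb)
  have hnκ : (n : ResidueField A) ≠ 0 := by
    rw [Ne, CharP.cast_eq_zero_iff (ResidueField A) q]; exact hn
  have hr : GoodRed.RankOne (residue A) :=
    @GoodRed.rankOne_of_liesOver Qbar _ A _ algebraic_int_Qbar q hq hA
  exact GoodRed.isPow_of_red_isPow hg1 hg2 hr hnκ (u := u) (ub := 1) (gb := 1)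
    (gaussF_R.mpr hu) one_ne_zero (one_pow n).symm hdiv

end Chart

end Fermat.Agent.DSB
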