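import Fermat.Agent.DSB.Defs

/-!
# The field of reductions
-/

set_option autoImplicit false
set_option linter.unusedSectionVars false

noncomputable section

namespace Fermat.Agent.DSB

open ModularCurve Fermat.Agent.ModFun Fermat.Agent.AnJac AlgebraicCurve IsLocalRing
open Fermat.Agent.HeckeQ CongruenceSubgroup MatrixGroups UpperHalfPlane Matrix
open Fermat.Agent.AnJacH IntermediateField Module
open scoped Pointwise

local notation "Qbar" => AlgebraicClosure ℚ
local notation "GQ" => (AlgebraicClosure ℚ ≃ₐ[ℚ] AlgebraicClosure ℚ)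

variable {A : ValuationSubring Qbar}

/-! ### more on the reduction relation -/

lemma _root_.Fermat.Agent.HeckeQ.Rd.zr : Rd A 0 0 := GoodRed.LR.zero (residue A)

lemma _root_.Fermat.Agent.HeckeQ.Rd.ad {u v : LaurentSeries Qbar}
    {y z : LaurentSeries (ResidueField A)} (h : Rd A u y) (h' : Rd A v z) : Rd A (u + v) (y + z) :=
  GoodRed.LR.add h h'

lemma _root_.Fermat.Agent.HeckeQ.Rd.ng {u : LaurentSeries Qbar}
    {y : LaurentSeries (ResidueField A)} (h : Rd A u y) : Rd A (-u) (-y) := GoodRed.LR.neg h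

lemma _root_.Fermat.Agent.HeckeQ.Rd.sb {u v : LaurentSeries Qbar}
    {y z : LaurentSeries (ResidueField A)} (h : Rd A u y) (h' : Rd A v z) : Rd A (u - v) (y - z) := by
  rw [sub_eq_add_neg, sub_eq_add_neg]; exact h.ad h'.ng

lemma _root_.Fermat.Agent.HeckeQ.Rd.iv {u : LaurentSeries Qbar}
    {y : LaurentSeries (ResidueField A)} (h : Rd A u y) (hy : y ≠ 0) : Rd A u⁻¹ y⁻¹ :=
  GoodRed.LR.inv h hy

lemma _root_.Fermat.Agent.HeckeQ.Rd.un {u : LaurentSeries Qbar}
    {y z : LaurentSeries (ResidueField A)} (h : Rd A u y) (h' : Rd A u z) : y = z :=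
  GoodRed.LR.unique h h'

lemma _root_.Fermat.Agent.HeckeQ.Rd.sm {ι : Type*} (s : Finset ι) {u : ι → LaurentSeries Qbar}
    {y : ι → LaurentSeries (ResidueField A)} (h : ∀ i ∈ s, Rd A (u i) (y i)) :
    Rd A (∑ i ∈ s, u i) (∑ i ∈ s, y i) := GoodRed.LR.sum s h

/-- elements which are not integral have inverse reducing to zero -/
lemma exists_inv_of_not_mem {c : Qbar} (hc : c ∉ A) : ∃ a : A, (a : Qbar) = c⁻¹ ∧ residue A a = 0 := by
  refine ⟨⟨c⁻¹, (A.mem_or_inv_mem c).resolve_left hc⟩, rfl, ?_⟩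
  rw [residue_eq_zero_iff, mem_maximalIdeal, mem_nonunits_iff]
  intro h
  obtain ⟨w, hw⟩ := h.exists_right_inv
  apply hc
  have hc0 : c ≠ 0 := by rintro rfl; exact hc (zero_mem _)
  have h8 : (w : Qbar) = c := by
    have h9 := congrArg (fun x : A => (x : Qbar)) hw
    change c⁻¹ * (w : Qbar) = 1 at h9
    field_simp at h9
    exact h9
  rw [← h8]; exact w.2

lemma Rd.constK {c : Qbar} {a : A} (h : (a : Qbar) = c) :
    Rd A (HahnSeries.C c) (HahnSeries.C (residue A a)) := by
  rw [← h]; exact Rd.const' a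

/-- scaling a family -/
theorem exists_scale_fam {ι : Type*} [Fintype ι] {e : ι → LaurentSeries Qbar}
    (he : ∀ i, e i ≠ 0 → Sc A (e i)) (h0 : ∃ i, e i ≠ 0) :
    ∃ c : Qbar, c ≠ 0 ∧ ∃ z : ι → LaurentSeries (ResidueField A),
      (∀ i, Rd A (HahnSeries.C c * e i) (z i)) ∧ ∃ i, z i ≠ 0 := by
  classical
  choose! c hc z hz hcz using he
  obtain ⟨j, hj⟩ := h0
  obtain ⟨i₀, hi₀, hmin⟩ := Finset.exists_min_image (Finset.univ.filter fun i => e i ≠ 0)
    (fun i => A.valuation (c i)) ⟨j, by simp [hj]⟩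
  have hi₀' : e i₀ ≠ 0 := (Finset.mem_filter.mp hi₀).2
  have key : ∀ i, ∃ y, Rd A (HahnSeries.C (c i₀) * e i) y ∧ (i = i₀ → y ≠ 0) := by
    intro i
    by_cases hi : e i = 0
    · refine ⟨0, by rw [hi, mul_zero]; exact Rd.zr, fun h => ?_⟩
      subst h
      exact absurd hi hi₀'
    · have h1 : A.valuation (c i₀) ≤ A.valuation (c i) :=
        hmin i (Finset.mem_filter.mpr ⟨Finset.mem_univ _, hi⟩)
      have h2 : c i₀ / c i ∈ A := by
        rw [← A.valuation_le_one_iff, map_div₀]
        exact div_le_one_of_le₀ h1 zero_le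
      have h3 := (Rd.const' (A := A) ⟨_, h2⟩).mul (hcz i hi)
      have h4 : HahnSeries.C (((⟨c i₀ / c i, h2⟩ : A) : Qbar)) * (HahnSeries.C (c i) * e i) =
          HahnSeries.C (c i₀) * e i := by
        rw [← mul_assoc, ← map_mul]
        congr 2
        exact div_mul_cancel₀ _ (hc i hi)
      rw [h4] at h3
      refine ⟨_, h3, fun h => ?_⟩
      subst h
      have := h3.un (hcz i hi)
      rw [this]
      exact hz i hi
  choose y hy hy' using key
  exact ⟨c i₀, hc i₀ hi₀', y, hy, i₀, hy' i₀ rfl⟩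

/-- the field of reductions -/
def redF (A : ValuationSubring Qbar) (F : IntermediateField Qbar (LaurentSeries Qbar)) :
    IntermediateField (ResidueField A) (LaurentSeries (ResidueField A)) where
  carrier := {y | ∃ u ∈ F, Rd A u y}
  mul_mem' := by
    rintro y z ⟨u, hu, h⟩ ⟨v, hv, h'⟩
    exact ⟨u * v, mul_mem hu hv, h.mul h'⟩
  add_mem' := by
    rintro y z ⟨u, hu, h⟩ ⟨v, hv, h'⟩
    exact ⟨u + v, add_mem hu hv, h.ad h'⟩
  algebraMap_mem' c := by
    obtain ⟨a, rfl⟩ := residue_surjective c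
    exact ⟨algebraMap _ _ (a : Qbar), F.algebraMap_mem _, GoodRed.LR.const (residue A) a⟩
  inv_mem' := by
    rintro y ⟨u, hu, h⟩
    rcases eq_or_ne y 0 with rfl | hy
    · exact ⟨0, zero_mem _, by rw [_root_.inv_zero]; exact Rd.zr⟩
    · exact ⟨u⁻¹, inv_mem hu, h.iv hy⟩

lemma mem_redF {F : IntermediateField Qbar (LaurentSeries Qbar)}
    {y : LaurentSeries (ResidueField A)} : y ∈ redF A F ↔ ∃ u ∈ F, Rd A u y := Iff.rfl

lemma redF_mono {E F : IntermediateField Qbar (LaurentSeries Qbar)} (h : E ≤ F) :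
    redF A E ≤ redF A F := by
  rintro y ⟨u, hu, h'⟩
  exact ⟨u, h hu, h'⟩

/-- lifts of linearly independent elements are linearly independent -/
theorem linearIndependent_lift {E : IntermediateField Qbar (LaurentSeries Qbar)}
    (hE : ∀ u ∈ E, u ≠ 0 → Sc A u) {ι : Type*} [Fintype ι] {u : ι → LaurentSeries Qbar}
    {y : ι → LaurentSeries (ResidueField A)} (h : ∀ i, Rd A (u i) (y i))
    (hy : LinearIndependent (redF A E) y) : LinearIndependent E u := by
  rw [Fintype.linearIndependent_iff]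
  intro g hg
  by_contra hne
  push Not at hne
  obtain ⟨j, hj⟩ := hne
  obtain ⟨c, hc, z, hz, i, hi⟩ := exists_scale_fam (A := A) (e := fun i => (g i : LaurentSeries Qbar))
    (fun i hi => hE _ (g i).2 hi) ⟨j, fun h => hj (Subtype.ext h)⟩
  have hzm : ∀ i, z i ∈ redF A E := fun i =>
    ⟨_, mul_mem (by rw [C_eq_algebraMap]; exact E.algebraMap_mem _) (g i).2, hz i⟩
  have h1 : Rd A (∑ i, HahnSeries.C c * (g i : LaurentSeries Qbar) * u i) (∑ i, z i * y i) :=
    Rd.sm _ fun i _ => (hz i).mul (h i)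
  have h2 : ∑ i, HahnSeries.C c * (g i : LaurentSeries Qbar) * u i = 0 := by
    have h3 : ∑ i, (g i : LaurentSeries Qbar) * u i = 0 := hg
    simp only [mul_assoc]
    rw [← Finset.mul_sum, h3, mul_zero]
  rw [h2] at h1
  have h3 : ∑ i, z i * y i = 0 := h1.un Rd.zr
  rw [Fintype.linearIndependent_iff] at hy
  have h4 := hy (fun i => ⟨z i, hzm i⟩) h3 i
  exact hi (congrArg Subtype.val h4)

/-- bound of dimension -/
theorem rank_redF_le {E F : IntermediateField Qbar (LaurentSeries Qbar)} (hEF : E ≤ F)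
    (hE : ∀ u ∈ E, u ≠ 0 → Sc A u) {n : ℕ} [FiniteDimensional E (extendScalars hEF)]
    (hn : finrank E (extendScalars hEF) ≤ n) :
    Module.rank (redF A E) (extendScalars (redF_mono (A := A) hEF)) ≤ n := by
  refine rank_le fun s hs => ?_
  have h1 : ∀ i : s, ∃ u ∈ F, Rd A u ((i : extendScalars (redF_mono (A := A) hEF)) :
      LaurentSeries (ResidueField A)) := fun i => (i : extendScalars (redF_mono (A := A) hEF)).2
  choose u hu hu' using h1
  have h2 : LinearIndependent (redF A E) (fun i : s =>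
      ((i : extendScalars (redF_mono (A := A) hEF)) : LaurentSeries (ResidueField A))) :=
    hs.map' ((extendScalars (redF_mono (A := A) hEF)).val.toLinearMap)
      (LinearMap.ker_eq_bot.mpr Subtype.val_injective)
  have h3 := linearIndependent_lift hE hu' h2
  let v : s → extendScalars hEF := fun i => ⟨u i, hu i⟩
  have h4 : LinearIndependent E v := by
    refine LinearIndependent.of_comp ((extendScalars hEF).val.toLinearMap) ?_
    exact h3
  have h5 := h4.fintype_card_le_finrank
  rw [Fintype.card_coe] at h5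
  exact h5.trans hn

theorem finiteDimensional_redF {E F : IntermediateField Qbar (LaurentSeries Qbar)} (hEF : E ≤ F)
    (hE : ∀ u ∈ E, u ≠ 0 → Sc A u) [FiniteDimensional E (extendScalars hEF)] :
    FiniteDimensional (redF A E) (extendScalars (redF_mono (A := A) hEF)) := by
  have : Module.Free (redF A E) (extendScalars (redF_mono (A := A) hEF)) :=
    Module.Free.of_divisionRing _ _
  exact Module.rank_lt_aleph0_iff.mp ((rank_redF_le hEF hE le_rfl).trans_lt
    Cardinal.natCast_lt_aleph0)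

theorem finrank_redF_le {E F : IntermediateField Qbar (LaurentSeries Qbar)} (hEF : E ≤ F)
    (hE : ∀ u ∈ E, u ≠ 0 → Sc A u) [FiniteDimensional E (extendScalars hEF)] :
    finrank (redF A E) (extendScalars (redF_mono (A := A) hEF)) ≤ finrank E (extendScalars hEF) := by
  exact finrank_le_of_rank_le (rank_redF_le (A := A) hEF hE le_rfl)

end Fermat.Agent.DSB
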