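import Fermat.Agent.DSB.Stab

/-!
# Separation: the degree of the field of reductions
-/

set_option autoImplicit false
set_option linter.unusedSectionVars false
set_option synthInstance.maxHeartbeats 400000

noncomputable section

namespace Fermat.Agent.DSB

open ModularCurve Fermat.Agent.ModFun Fermat.Agent.AnJac AlgebraicCurve IsLocalRing
open Fermat.Agent.HeckeQ CongruenceSubgroup MatrixGroups UpperHalfPlane Matrix
open Fermat.Agent.AnJacH IntermediateField Module
open scoped Pointwise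

local notation "Qbar" => AlgebraicClosure ℚ
local notation "GQ" => (AlgebraicClosure ℚ ≃ₐ[ℚ] AlgebraicClosure ℚ)

variable {A : ValuationSubring Qbar} {N : ℕ} [NeZero N] {m : ℕ} [NeZero m] {h : m ∣ N}
  {H₀ : Subgroup (ZMod m)ˣ} {hΓ : Adm N (GH N m h H₀)} {θ : MfG hΓ} (hθ : IsGen hΓ θ)

/-- diamond automorphisms preserve reduction zero -/
theorem stable_zero (hQ : MfG hΓ ≤ QZ ℂ) {q : ℕ} (hq : q.Prime) (hA : A.LiesOverPrime q)
    (hqN : ¬ q ∣ N) (g : Gamma0 N) {u : FG hΓ ιQ} (hu : Rd A (u : LaurentSeries Qbar) 0) :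
    Rd A (diaK ιQ hθ g u : LaurentSeries Qbar) 0 := by
  rcases eq_or_ne u 0 with rfl | hu0
  · rw [map_zero]; exact hu
  obtain ⟨z, hz⟩ := stable hθ hQ hq hA hqN g hu
  obtain ⟨c, hc, y', hy', h1⟩ := sc_FG hQ ιQ A hu0
  have hcA : c ∉ A := by
    intro hcA
    have h2 := (Rd.const' (A := A) ⟨c, hcA⟩).mul hu
    rw [mul_zero] at h2
    exact hy' (h1.un h2)
  obtain ⟨a, ha, ha0⟩ := exists_inv_of_not_mem hcA
  set cF : FG hΓ ιQ := algebraMap Qbar _ c with hcF
  have hcc : (cF : LaurentSeries Qbar) = HahnSeries.C c := by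
    rw [C_eq_algebraMap]; rfl
  have h2 : Rd A ((cF * u : FG hΓ ιQ) : LaurentSeries Qbar) y' := by
    rw [← hcc] at h1
    exact h1
  obtain ⟨z', hz'⟩ := stable hθ hQ hq hA hqN g h2
  rw [map_mul, hcF, (diaK ιQ hθ g).commutes c, ← hcF] at hz'
  have h3 := (Rd.constK (A := A) ha).mul hz'
  rw [ha0, map_zero, zero_mul] at h3
  have h4 : (HahnSeries.C c⁻¹ : LaurentSeries Qbar) *
      ((cF * diaK ιQ hθ g u : FG hΓ ιQ) : LaurentSeries Qbar) =
      (diaK ιQ hθ g u : LaurentSeries Qbar) := by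
    have h5 : ((cF * diaK ιQ hθ g u : FG hΓ ιQ) : LaurentSeries Qbar) =
        HahnSeries.C c * (diaK ιQ hθ g u : LaurentSeries Qbar) := by
      rw [← hcc]; rfl
    rw [h5, ← mul_assoc, ← map_mul, inv_mul_cancel₀ hc, map_one, one_mul]
  rw [h4] at h3
  exact h3

/-- a function separating the translates modulo `A` -/
def SepAt (A : ValuationSubring Qbar) : Prop :=
  ∃ (u : FG hΓ ιQ) (y : Gamma0 N → LaurentSeries (ResidueField A)),
    (∀ g, Rd A (diaK ιQ hθ g u : LaurentSeries Qbar) (y g)) ∧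
    ∀ g : Gamma0 N, y g = y 1 → (g : SL(2,ℤ)) ∈ GH N m h H₀

variable {hθ}

lemma fin_ext (hθ : IsGen hΓ θ) :
    FiniteDimensional (modularFunctionFieldFullC Qbar N) (extendScalars (FNle hΓ)) :=
  (finrank_ext hθ).1

set_option maxHeartbeats 2000000 in
theorem card_le_of_sep (hQ : MfG hΓ ≤ QZ ℂ) {q : ℕ} (hq : q.Prime) (hA : A.LiesOverPrime q)
    (hqN : ¬ q ∣ N) (hs : SepAt hθ A) :
    Nat.card (Dl N (GH N m h H₀)) ≤ finrank (redF A (modularFunctionFieldFullC Qbar N))
      (extendScalars (redF_mono (A := A) (FNle hΓ))) := by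
  classical
  obtain ⟨u, y, hy, hsep⟩ := hs
  have := hΓ.finite
  have := Fintype.ofFinite (Dl N (GH N m h H₀))
  have hE : ∀ u ∈ modularFunctionFieldFullC Qbar N, u ≠ 0 → Sc A u := fun u hu hu0 =>
    sc_FN' hq hA hqN hu hu0
  have hfin := fin_ext hθ
  have hfin2 := finiteDimensional_redF (A := A) (FNle hΓ) hE
  set Eb := redF A (modularFunctionFieldFullC Qbar N) with hEb
  have hy1 : y 1 ∈ redF A (FG hΓ ιQ) := ⟨_, (diaK ιQ hθ 1 u).2, hy 1⟩
  set x : extendScalars (redF_mono (A := A) (FNle hΓ)) := ⟨y 1, hy1⟩ with hx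
  set P := minpoly Eb x with hP
  have hPm : P.Monic := minpoly.monic (Algebra.IsIntegral.isIntegral x)
  have hPd : P.natDegree ≤ finrank Eb (extendScalars (redF_mono (A := A) (FNle hΓ))) :=
    minpoly.natDegree_le x
  have hPx : Polynomial.aeval (y 1) P = 0 := by
    have h1 : Polynomial.aeval x P = 0 := minpoly.aeval _ _
    have h2 := Polynomial.aeval_algHom_apply
      (extendScalars (redF_mono (A := A) (FNle hΓ))).val x P
    rw [h1, map_zero] at h2
    exact h2
  -- lift the coefficients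
  have hc : ∀ i, ∃ c ∈ modularFunctionFieldFullC Qbar N, Rd A c (P.coeff i : Eb) := fun i =>
    (P.coeff i).2
  choose c hc hcR using hc
  let cN : ℕ → FG hΓ ιQ := fun i => inN hΓ ιQ ⟨c i, hc i⟩
  have hsum : ∀ (v : FG hΓ ιQ) (z : LaurentSeries (ResidueField A)),
      Rd A (v : LaurentSeries Qbar) z →
      Rd A ((∑ i ∈ Finset.range (P.natDegree + 1), cN i * v ^ i : FG hΓ ιQ) : LaurentSeries Qbar)
        (Polynomial.aeval z P) := by
    intro v z hv
    rw [Polynomial.aeval_eq_sum_range, AddSubmonoidClass.coe_finsetSum]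
    refine Rd.sm _ fun i _ => ?_
    exact (hcR i).mul (hv.pow i)
  have hroot : ∀ g, Polynomial.aeval (y g) P = 0 := by
    intro g
    have h1 := hsum _ _ (hy 1)
    rw [diaK_one, hPx] at h1
    have h2 := stable_zero hθ hQ hq hA hqN g h1
    rw [map_sum] at h2
    have h3 : ∀ i, diaK ιQ hθ g (cN i * u ^ i) = cN i * (diaK ιQ hθ g u) ^ i := by
      intro i
      rw [map_mul, map_pow, diaK_inN]
    simp only [h3] at h2
    exact (hsum _ _ (hy g)).un h2
  -- injectivity
  have hinj : ∀ g g' : Gamma0 N, y g = y g' →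
      (QuotientGroup.mk g : Dl N (GH N m h H₀)) = QuotientGroup.mk g' := by
    intro g g' hgg
    have h1 : Rd A ((diaK ιQ hθ g u - diaK ιQ hθ g' u : FG hΓ ιQ) : LaurentSeries Qbar) 0 := by
      have := (hy g).sb (hy g')
      rw [hgg, sub_self] at this
      exact this
    have h2 := stable_zero hθ hQ hq hA hqN g⁻¹ h1
    rw [map_sub, diaK_diaK, diaK_diaK, inv_mul_cancel] at h2
    have h3 : Rd A ((diaK ιQ hθ 1 u - diaK ιQ hθ (g⁻¹ * g') u : FG hΓ ιQ) : LaurentSeries Qbar)
      (y 1 - y (g⁻¹ * g')) := (hy 1).sb (hy _)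
    have h4 := h3.un h2
    rw [QuotientGroup.eq, Subgroup.mem_subgroupOf]
    exact hsep _ (sub_eq_zero.mp h4).symm
  -- counting
  let f : Dl N (GH N m h H₀) → LaurentSeries (ResidueField A) := fun d => y (Quotient.out d)
  have hf : Function.Injective f := by
    intro d d' hdd
    have := hinj _ _ hdd
    rw [QuotientGroup.out_eq', QuotientGroup.out_eq'] at this
    exact this
  have hPm' : (P.map (algebraMap Eb (LaurentSeries (ResidueField A)))) ≠ 0 :=
    (hPm.map _).ne_zero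
  have h1 : Finset.univ.image f ⊆ (P.map (algebraMap Eb (LaurentSeries (ResidueField A)))).roots.toFinset := by
    intro z hz
    obtain ⟨d, -, rfl⟩ := Finset.mem_image.mp hz
    rw [Multiset.mem_toFinset, Polynomial.mem_roots hPm', Polynomial.IsRoot.def,
      Polynomial.eval_map_algebraMap]
    exact hroot _
  have h2 := Finset.card_le_card h1
  rw [Finset.card_image_of_injective _ hf, Finset.card_univ, ← Nat.card_eq_fintype_card] at h2
  have h3 := (Multiset.toFinset_card_le _).trans (Polynomial.card_roots'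
    (P.map (algebraMap Eb (LaurentSeries (ResidueField A)))))
  rw [Polynomial.natDegree_map] at h3
  exact (h2.trans h3).trans hPd

/-- **the degrees** -/
theorem degrees (hQ : MfG hΓ ≤ QZ ℂ) {q : ℕ} (hq : q.Prime) (hA : A.LiesOverPrime q)
    (hqN : ¬ q ∣ N) (hs : SepAt hθ A) :
    relfinrank (modularFunctionFieldFullC Qbar N) (FG hΓ ιQ) = Nat.card (Dl N (GH N m h H₀)) ∧
    relfinrank (modularFunctionFieldFullC (ResidueField A) N) (redF A (FG hΓ ιQ)) =
      Nat.card (Dl N (GH N m h H₀)) := by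
  have hE : ∀ u ∈ modularFunctionFieldFullC Qbar N, u ≠ 0 → Sc A u := fun u hu hu0 =>
    sc_FN' hq hA hqN hu hu0
  obtain ⟨hfin, hdeg⟩ := finrank_ext (hΓ := hΓ) hθ
  have h1 := card_le_of_sep hQ hq hA hqN hs
  have h2 := finrank_redF_le (A := A) (FNle hΓ) hE
  rw [← redF_FN hq hA hqN, relfinrank_eq_finrank_of_le (redF_mono (FNle hΓ)),
    relfinrank_eq_finrank_of_le (FNle hΓ)]
  exact ⟨le_antisymm hdeg (h1.trans h2), le_antisymm (h2.trans hdeg) h1⟩

end Fermat.Agent.DSB
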