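import Fermat.Agent.DSB.RedF
import Mathlib.NumberTheory.LSeries.PrimesInAP

/-!
# Stability of the reduction under the diamond automorphisms
-/

set_option autoImplicit false
set_option linter.unusedSectionVars false
set_option synthInstance.maxHeartbeats 400000

noncomputable section

namespace Fermat.Agent.DSB

open ModularCurve Fermat.Agent.ModFun Fermat.Agent.AnJac AlgebraicCurve IsLocalRing
open Fermat.Agent.HeckeQ CongruenceSubgroup MatrixGroups UpperHalfPlane Matrix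
open Fermat.Agent.AnJacH IntermediateField Module
open scoped Pointwise

local notation "Qbar" => AlgebraicClosure ℚ
local notation "GQ" => (AlgebraicClosure ℚ ≃ₐ[ℚ] AlgebraicClosure ℚ)

variable {A : ValuationSubring Qbar} {N : ℕ} [NeZero N]

section Art

variable {Γ : Subgroup SL(2,ℤ)} {hΓ : Adm N Γ} {θ : MfG hΓ} (hθ : IsGen hΓ θ)

/-- the diamond automorphisms -/
def diaKE (g : Gamma0 N) : FG hΓ ιQ ≃ₐ[Qbar] FG hΓ ιQ :=
  AlgEquiv.ofAlgHom (diaK ιQ hθ g) (diaK ιQ hθ g⁻¹)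
    (by
      ext u : 1
      change diaK ιQ hθ g (diaK ιQ hθ g⁻¹ u) = u
      rw [diaK_diaK, mul_inv_cancel, diaK_one])
    (by
      ext u : 1
      change diaK ιQ hθ g⁻¹ (diaK ιQ hθ g u) = u
      rw [diaK_diaK, inv_mul_cancel, diaK_one])

/-- the diamond automorphisms as a homomorphism -/
def diaKH : Gamma0 N →* (FG hΓ ιQ ≃ₐ[Qbar] FG hΓ ιQ) where
  toFun := diaKE hθ
  map_one' := by ext u : 1; exact diaK_one ιQ hθ u
  map_mul' g h := by ext u : 1; exact (diaK_diaK ιQ hθ g h u).symm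

/-- the group of diamond automorphisms -/
abbrev DK : Subgroup (FG hΓ ιQ ≃ₐ[Qbar] FG hΓ ιQ) := (diaKH hθ).range

lemma exists_surj_DK : ∃ f : Dl N Γ → DK hθ, Function.Surjective f := by
  refine ⟨fun x => ⟨diaKE hθ (Quotient.out x), ⟨_, rfl⟩⟩, ?_⟩
  rintro ⟨_, g, rfl⟩
  refine ⟨QuotientGroup.mk g, Subtype.ext ?_⟩
  ext u : 1
  exact diaK_congr ιQ hθ (Quotient.out_eq _) u

instance finite_DK : Finite (DK hθ) := by
  have := hΓ.finite
  obtain ⟨f, hf⟩ := exists_surj_DK hθ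
  exact Finite.of_surjective f hf

lemma card_DK_le : Nat.card (DK hθ) ≤ Nat.card (Dl N Γ) := by
  have := hΓ.finite
  obtain ⟨f, hf⟩ := exists_surj_DK hθ
  exact Nat.card_le_card_of_surjective f hf

variable (hΓ) in
/-- the field of `Γ₀(N)` is contained in the field of `Γ` -/
lemma FNle : modularFunctionFieldFullC Qbar N ≤ FG hΓ ιQ := FN_le_FG hΓ ιQ

include hθ in
theorem finrank_ext : Module.Finite (modularFunctionFieldFullC Qbar N) (extendScalars (FNle hΓ)) ∧
    finrank (modularFunctionFieldFullC Qbar N) (extendScalars (FNle hΓ)) ≤ Nat.card (Dl N Γ) := by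
  classical
  have := Fintype.ofFinite (DK hθ)
  let φ : modularFunctionFieldFullC Qbar N →+* FixedPoints.subfield (DK hθ) (FG hΓ ιQ) :=
    (inN hΓ ιQ).toRingHom.codRestrict (FixedPoints.subfield (DK hθ) (FG hΓ ιQ)) (by
      rintro y ⟨_, g, rfl⟩
      exact diaK_inN ιQ hθ g y)
  have hφ : Function.Bijective φ := by
    refine ⟨φ.injective, fun x => ?_⟩
    obtain ⟨y, hy⟩ := mem_of_diaK_fixed ιQ hθ (u := (x : FG hΓ ιQ))
      (fun g => x.2 ⟨diaKE hθ g, ⟨g, rfl⟩⟩)
    exact ⟨y, Subtype.ext hy⟩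
  let e : FixedPoints.subfield (DK hθ) (FG hΓ ιQ) ≃+* modularFunctionFieldFullC Qbar N :=
    (RingEquiv.ofBijective φ hφ).symm
  let j : FG hΓ ιQ ≃+* extendScalars (FNle hΓ) :=
    { toFun := fun x => ⟨x.1, x.2⟩
      invFun := fun x => ⟨x.1, x.2⟩
      left_inv := fun _ => rfl
      right_inv := fun _ => rfl
      map_mul' := fun _ _ => rfl
      map_add' := fun _ _ => rfl }
  have hc : (algebraMap (modularFunctionFieldFullC Qbar N) (extendScalars (FNle hΓ))).comp
      e.toRingHom = j.toRingHom.comp (algebraMap (FixedPoints.subfield (DK hθ) (FG hΓ ιQ))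
        (FG hΓ ιQ)) := by
    refine RingHom.ext fun x => Subtype.ext ?_
    obtain ⟨y, rfl⟩ := hφ.2 x
    have : e (φ y) = y := RingEquiv.symm_apply_apply (RingEquiv.ofBijective φ hφ) y
    change ((algebraMap (modularFunctionFieldFullC Qbar N) (extendScalars (FNle hΓ)) (e (φ y)) :
      extendScalars (FNle hΓ)) : LaurentSeries Qbar) = _
    rw [this]
    rfl
  refine ⟨Module.Finite.of_equiv_equiv e j hc, ?_⟩
  rw [← Algebra.finrank_eq_of_equiv_equiv e j hc]
  refine (FixedPoints.finrank_le_card (DK hθ) (FG hΓ ιQ)).trans ?_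
  rw [← Nat.card_eq_fintype_card]
  exact card_DK_le hθ

end Art

/-! ### reductions of the field of `Γ₀(N)` -/

lemma sc_FN {A : ValuationSubring Qbar} {q : ℕ} (hq : q.Prime) (hA : A.LiesOverPrime q)
    (hqN : ¬ q ∣ N) {u : LaurentSeries Qbar} (hu : u ∈ modularFunctionFieldFullC Qbar N)
    (hu0 : u ≠ 0) : ∃ c : Qbar, c ≠ 0 ∧ ∃ y : LaurentSeries (ResidueField A), y ≠ 0 ∧
      y ∈ modularFunctionFieldFullC (ResidueField A) N ∧ Rd A (HahnSeries.C c * u) y := by
  have : CharP (ResidueField A) q := FrobDens.charP_residueField A hq hA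
  have hNκ : (N : ResidueField A) ≠ 0 := by
    rw [Ne, CharP.cast_eq_zero_iff (ResidueField A) q]; exact hqN
  have hNK : (N : Qbar) ≠ 0 := by exact_mod_cast NeZero.ne N
  obtain ⟨c, hc, h, hne⟩ := (GoodRed.modGauss (residue A) N residue_surjective hNK hNκ).scale
    (⟨u, hu⟩ : modularFunctionFieldFullC Qbar N) (fun h => hu0 (congrArg Subtype.val h))
  refine ⟨c, hc, _, fun h0 => hne (Subtype.ext h0), SetLike.coe_mem _, ?_⟩
  have h1 := (GoodRed.modGauss_R (residue A) N).mp ⟨h, rfl⟩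
  have h2 : ((algebraMap Qbar (modularFunctionFieldFullC Qbar N) c * ⟨u, hu⟩ :
      modularFunctionFieldFullC Qbar N) : LaurentSeries Qbar) = HahnSeries.C c * u := by
    rw [C_eq_algebraMap]; rfl
  rw [h2] at h1
  exact h1

lemma sc_FN' {A : ValuationSubring Qbar} {q : ℕ} (hq : q.Prime) (hA : A.LiesOverPrime q)
    (hqN : ¬ q ∣ N) {u : LaurentSeries Qbar} (hu : u ∈ modularFunctionFieldFullC Qbar N)
    (hu0 : u ≠ 0) : Sc A u := by
  obtain ⟨c, hc, y, hy, -, h⟩ := sc_FN hq hA hqN hu hu0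
  exact ⟨c, hc, y, hy, h⟩

/-- the reductions of functions on `X₀(N)` -/
theorem redF_FN {A : ValuationSubring Qbar} {q : ℕ} (hq : q.Prime) (hA : A.LiesOverPrime q)
    (hqN : ¬ q ∣ N) : redF A (modularFunctionFieldFullC Qbar N) =
      modularFunctionFieldFullC (ResidueField A) N := by
  apply le_antisymm
  · rintro y ⟨u, hu, h⟩
    rcases eq_or_ne y 0 with rfl | hy
    · exact zero_mem _
    obtain ⟨c, hc, z, hz, hz', h'⟩ := sc_FN hq hA hqN hu (h.ne_zero hy)
    have h1 : Rd A (HahnSeries.C 1 * u) y := by rwa [map_one, one_mul]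
    obtain ⟨b, hb, hzy⟩ := Rd.compare one_ne_zero hc hy hz h1 h'
    have h2 : y = HahnSeries.C b⁻¹ * z := by
      rw [hzy, ← mul_assoc, ← map_mul, inv_mul_cancel₀ hb, map_one, one_mul]
    rw [h2]
    refine mul_mem ?_ hz'
    rw [C_eq_algebraMap]
    exact IntermediateField.algebraMap_mem _ _
  · intro y hy
    obtain ⟨x, hx⟩ := GoodRed.modPre_lift (residue A) N residue_surjective
      (⟨y, hy⟩ : modularFunctionFieldFullC (ResidueField A) N)
    exact ⟨x, x.2, hx⟩

section Hecke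

variable {m : ℕ} {h : m ∣ N} {H₀ : Subgroup (ZMod m)ˣ}
  {hΓ : Adm N (GH N m h H₀)} {θ : MfG hΓ} (hθ : IsGen hΓ θ)

/-- the separating element: if stability fails there is a function with reduction `1` whose
translate has reduction `0` -/
lemma exists_sep_of_unstable (hQ : MfG hΓ ≤ QZ ℂ) {g : Gamma0 N} {u : FG hΓ ιQ}
    {y : LaurentSeries (ResidueField A)} (hu : Rd A (u : LaurentSeries Qbar) y)
    (hv : ¬ ∃ z, Rd A (diaK ιQ hθ g u : LaurentSeries Qbar) z) :
    ∃ e : FG hΓ ιQ, Rd A (e : LaurentSeries Qbar) 1 ∧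
      Rd A (diaK ιQ hθ g e : LaurentSeries Qbar) 0 := by
  set v := diaK ιQ hθ g u with hvdef
  have hv0 : v ≠ 0 := by
    intro h0
    apply hv
    exact ⟨0, by rw [h0]; exact Rd.zr⟩
  obtain ⟨c, hc, z, hz, hcz⟩ := sc_FG hQ ιQ A hv0
  have hcinv : c⁻¹ ∉ A := by
    intro hcA
    apply hv
    have h1 := (Rd.const' (A := A) ⟨c⁻¹, hcA⟩).mul hcz
    rw [← mul_assoc, ← map_mul] at h1
    have h2 : (((⟨c⁻¹, hcA⟩ : A) : Qbar)) * c = 1 := inv_mul_cancel₀ hc
    rw [h2, map_one, one_mul] at h1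
    exact ⟨_, h1⟩
  obtain ⟨b, hb⟩ := IsAlgClosed.exists_pow_nat_eq c (n := 2) (by norm_num)
  have hb0 : b ≠ 0 := by
    rintro rfl
    apply hc
    rw [← hb]; simp
  have hbinv : b⁻¹ ∉ A := by
    intro h1
    apply hcinv
    rw [← hb, ← _root_.inv_pow]
    exact pow_mem h1 2
  obtain ⟨a, ha, ha0⟩ := exists_inv_of_not_mem hbinv
  rw [_root_.inv_inv] at ha
  have hbR : Rd A (HahnSeries.C b) 0 := by
    have := Rd.constK (A := A) ha
    rwa [ha0, map_zero] at this
  set bF : FG hΓ ιQ := algebraMap Qbar _ b with hbF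
  have hbFc : (bF : LaurentSeries Qbar) = HahnSeries.C b := by
    rw [C_eq_algebraMap]; rfl
  have hbF0 : bF ≠ 0 := (map_ne_zero _).mpr hb0
  have hdb : diaK ιQ hθ g bF = bF := (diaK ιQ hθ g).commutes b
  -- `e = 1 / (1 + b u)`
  have h1 : Rd A ((1 + bF * u : FG hΓ ιQ) : LaurentSeries Qbar) 1 := by
    have h2 := Rd.one.ad (hbR.mul hu)
    rw [zero_mul, add_zero] at h2
    rw [← hbFc] at h2
    exact h2
  have hne : (1 + bF * u : FG hΓ ιQ) ≠ 0 := fun h0 =>
    h1.ne_zero one_ne_zero (congrArg Subtype.val h0)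
  refine ⟨(1 + bF * u)⁻¹, ?_, ?_⟩
  · have := h1.iv one_ne_zero
    rw [_root_.inv_one] at this
    exact this
  · have hbv : bF * v ≠ 0 := mul_ne_zero hbF0 hv0
    have hw : Rd A (((bF * v)⁻¹ : FG hΓ ιQ) : LaurentSeries Qbar) 0 := by
      have h3 := hbR.mul (hcz.iv hz)
      rw [zero_mul] at h3
      have h4 : (((bF * v)⁻¹ : FG hΓ ιQ) : LaurentSeries Qbar) =
          HahnSeries.C b * (HahnSeries.C c * (v : LaurentSeries Qbar))⁻¹ := by
        have h5 : (((bF * v)⁻¹ : FG hΓ ιQ) : LaurentSeries Qbar) =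
          (HahnSeries.C b * (v : LaurentSeries Qbar))⁻¹ := by rw [← hbFc]; rfl
        have h6 : (HahnSeries.C b : LaurentSeries Qbar) ≠ 0 := C_ne_zero hb0
        rw [h5, ← hb, map_pow, mul_inv, mul_inv]
        field_simp
      rw [h4]
      exact h3
    have h7 : Rd A (((1 + (bF * v)⁻¹)⁻¹ : FG hΓ ιQ) : LaurentSeries Qbar) 1 := by
      have h8 := Rd.one.ad hw
      rw [add_zero] at h8
      have h9 := h8.iv one_ne_zero
      rw [_root_.inv_one] at h9
      exact h9
    have h10 := hw.mul h7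
    rw [zero_mul] at h10
    have h11 : diaK ιQ hθ g (1 + bF * u)⁻¹ = (bF * v)⁻¹ * (1 + (bF * v)⁻¹)⁻¹ := by
      rw [map_inv₀, map_add, map_mul, map_one, hdb, ← hvdef]
      have h12 : (1 + bF * v) ≠ 0 := by
        have h13 : diaK ιQ hθ g (1 + bF * u) = 1 + bF * v := by
          rw [map_add, map_mul, map_one, hdb]
        rw [← h13]
        exact (map_ne_zero _).mpr hne
      have h14 : (1 + (bF * v)⁻¹) ≠ 0 := by
        intro h0
        apply h12
        have h15 : (1 + (bF * v)⁻¹) * (bF * v) = 0 := by rw [h0, zero_mul]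
        rw [add_mul, inv_mul_cancel₀ hbv, one_mul, add_comm] at h15
        exact h15
      rw [← mul_inv, mul_add, mul_one, mul_inv_cancel₀ hbv, add_comm]
    rw [h11]
    exact h10

/-- the Hecke trick -/
lemma qExpand_mem_of_sep {g : Gamma0 N} {e : FG hΓ ιQ} (he : Rd A (e : LaurentSeries Qbar) 1)
    (he' : Rd A (diaK ιQ hθ g e : LaurentSeries Qbar) 0) {r : ℕ} [hr : Fact r.Prime] [NeZero r]
    (hrN : ¬ r ∣ N) (hg : ((dM N m h g : (ZMod m)ˣ) : ZMod m) = r)
    {y : LaurentSeries Qbar} (hy : y ∈ modularFunctionFieldFullC Qbar N)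
    {yb : LaurentSeries (ResidueField A)} (h1 : Rd A y yb) :
    qExpand _ r yb ∈ redF A (FG hΓ ιQ) := by
  obtain ⟨ζ, hζ⟩ := exists_zeta r
  set yF : FG hΓ ιQ := inN hΓ ιQ ⟨y, hy⟩ with hyF
  have hyR : Rd A (yF : LaurentSeries Qbar) yb := h1
  set w : FG hΓ ιQ := e + (1 - e) * yF with hw
  have hwR : Rd A (w : LaurentSeries Qbar) 1 := by
    have h2 := he.ad ((Rd.one.sb he).mul hyR)
    rw [sub_self, zero_mul, add_zero] at h2
    exact h2
  have hdw : diaK ιQ hθ g w = diaK ιQ hθ g e + (1 - diaK ιQ hθ g e) * yF := by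
    rw [hw, map_add, map_mul, map_sub, map_one, hyF, diaK_inN]
  have hdwR : Rd A (diaK ιQ hθ g w : LaurentSeries Qbar) yb := by
    have h2 := he'.ad ((Rd.one.sb he').mul hyR)
    rw [sub_zero, one_mul, zero_add] at h2
    rw [hdw]
    exact h2
  refine ⟨_, (FTG ιQ hθ hrN hg hζ w).2, ?_⟩
  rw [coe_FTG, heckeW_eq_hW hζ]
  have h3 := (Rd.qExpand' (ℓ := r) hdwR).mul (Rd.hW_one' (ℓ := r) hwR)
  rwa [mul_one] at h3

lemma mem_div_prime_mul {r N d : ℕ} (hr : r.Prime) (hd : d ∣ r * N) : d ∣ N ∨ ∃ d', d' ∣ N ∧ d = r * d' := by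
  by_cases h : r ∣ d
  · right
    obtain ⟨d', rfl⟩ := h
    exact ⟨d', Nat.dvd_of_mul_dvd_mul_left hr.pos hd, rfl⟩
  · left
    exact (Nat.Coprime.dvd_of_dvd_mul_left ((Nat.Prime.coprime_iff_not_dvd hr).mpr h).symm hd)

/-- **stability** of the ring of functions with a reduction -/
theorem stable {m : ℕ} [NeZero m] {h : m ∣ N} {H₀ : Subgroup (ZMod m)ˣ}
    {hΓ : Adm N (GH N m h H₀)} {θ : MfG hΓ} (hθ : IsGen hΓ θ) (hQ : MfG hΓ ≤ QZ ℂ)
    {q : ℕ} (hq : q.Prime) (hA : A.LiesOverPrime q) (hqN : ¬ q ∣ N)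
    (g : Gamma0 N) {u : FG hΓ ιQ} {y : LaurentSeries (ResidueField A)}
    (hu : Rd A (u : LaurentSeries Qbar) y) :
    ∃ z, Rd A (diaK ιQ hθ g u : LaurentSeries Qbar) z := by
  by_contra hv
  obtain ⟨e, he, he'⟩ := exists_sep_of_unstable hθ hQ hu hv
  -- choose a prime
  obtain ⟨r, hr1, hr, hr2⟩ := Nat.forall_exists_prime_gt_and_eq_mod (q := m)
    (a := ((dM N m h g : (ZMod m)ˣ) : ZMod m)) (Units.isUnit _)
    (max (Nat.card (Dl N (GH N m h H₀))) (max q N))
  have hr3 : Nat.card (Dl N (GH N m h H₀)) < r := (le_max_left _ _).trans_lt hr1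
  have hrq : q < r := ((le_max_left _ _).trans (le_max_right _ _)).trans_lt hr1
  have hrN' : N < r := ((le_max_right _ _).trans (le_max_right _ _)).trans_lt hr1
  have hrN : ¬ r ∣ N := fun h' => by
    have := Nat.le_of_dvd (Nat.pos_of_ne_zero (NeZero.ne N)) h'
    omega
  have : Fact r.Prime := ⟨hr⟩
  have : NeZero r := ⟨hr.ne_zero⟩
  have : CharP (ResidueField A) q := FrobDens.charP_residueField A hq hA
  have hNκ : ((r * N : ℕ) : ResidueField A) ≠ 0 := by
    rw [Ne, CharP.cast_eq_zero_iff (ResidueField A) q]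
    intro h1
    rcases (Nat.Prime.dvd_mul hq).mp h1 with h2 | h2
    · have := (Nat.prime_dvd_prime_iff_eq hq hr).mp h2
      omega
    · exact hqN h2
  have hle : modularFunctionFieldFullC (ResidueField A) N ≤
      modularFunctionFieldFullC (ResidueField A) (r * N) :=
    full_degeneracyC_le (K := ResidueField A) (Dvd.intro_left r rfl)
  have hmem : ∀ d : ℕ, ∀ _ : NeZero d, d ∣ N →
      qExpand _ d (jqModC (ResidueField A)) ∈ redF A (FG hΓ ιQ) := fun d hd hdN =>
    ⟨qExpand Qbar d (jqModC Qbar), FNle hΓ (jqModCd_mem_full Qbar N hdN),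
      GoodRed.LR_jqd (residue A) d⟩
  have hle2 : modularFunctionFieldFullC (ResidueField A) (r * N) ≤ redF A (FG hΓ ιQ) := by
    apply IntermediateField.adjoin_le_iff.mpr
    rintro _ ⟨d, hd, hdN, rfl⟩
    rcases mem_div_prime_mul hr hdN with h1 | ⟨d', h1, rfl⟩
    · exact hmem d hd h1
    · have : NeZero d' := ⟨fun h0 => by
        rw [h0, mul_zero] at hd
        exact hd.out rfl⟩
      have h2 := qExpand_mem_of_sep hθ he he' hrN hr2.symm
        (jqModCd_mem_full Qbar N h1) (GoodRed.LR_jqd (residue A) d')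
      have h3 : qExpand (ResidueField A) (r * d') (jqModC (ResidueField A)) =
          qExpand _ r (qExpand _ d' (jqModC (ResidueField A))) := by
        rw [qExpand_qExpand]
      rw [h3]
      exact h2
  -- degrees
  obtain ⟨hfin, hdeg⟩ := finrank_ext (hΓ := hΓ) hθ
  have hE : ∀ u ∈ modularFunctionFieldFullC Qbar N, u ≠ 0 → Sc A u := fun u hu hu0 =>
    sc_FN' hq hA hqN hu hu0
  have hb := rank_redF_le (A := A) (FNle hΓ) hE hdeg
  have h1 : relfinrank (modularFunctionFieldFullC (ResidueField A) N)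
      (modularFunctionFieldFullC (ResidueField A) (r * N)) = r + 1 :=
    GoodRed.relfinrank_full hr hrN hNκ
  have h2 : relfinrank (redF A (modularFunctionFieldFullC Qbar N)) (redF A (FG hΓ ιQ)) ≤
      Nat.card (Dl N (GH N m h H₀)) := by
    rw [relfinrank_eq_finrank_of_le (redF_mono (FNle hΓ))]
    exact finrank_le_of_rank_le hb
  have hfin2 := finiteDimensional_redF (A := A) (FNle hΓ) hE
  have h0 : relfinrank (redF A (modularFunctionFieldFullC Qbar N)) (redF A (FG hΓ ιQ)) ≠ 0 := by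
    rw [relfinrank_eq_finrank_of_le (redF_mono (FNle hΓ))]
    exact (finrank_pos).ne'
  rw [redF_FN hq hA hqN] at h2 h0
  have h3 := relfinrank_mul_relfinrank hle hle2
  rw [h1] at h3
  have h4 : relfinrank (modularFunctionFieldFullC (ResidueField A) (r * N))
      (redF A (FG hΓ ιQ)) ≠ 0 := by
    intro h5
    rw [h5, mul_zero] at h3
    exact h0 h3.symm
  have h5 : r + 1 ≤ (r + 1) * relfinrank (modularFunctionFieldFullC (ResidueField A) (r * N))
      (redF A (FG hΓ ιQ)) := Nat.le_mul_of_pos_right _ (Nat.pos_of_ne_zero h4)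
  omega

end Hecke

end Fermat.Agent.DSB
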